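import Fermat.Agent.H97.Shap.Interfaces
import Fermat.Agent.H19.Cft.HomologyApi

/-!
# P-CFT / FR-SHAP row SH-2b: Shapiro in degree `0` (helper59)

`H⁰(G; Coind_U A) → H⁰(U; A)`, `f ↦ f 1`, is bijective
(`shapiroZero : Fermat.Agent.H97.Shap.ShapiroZeroStatement`; smoothness is not needed).
-/

set_option autoImplicit false

universe u

open CategoryTheory groupCohomology

namespace Fermat.Agent.H59.Shap

open Fermat.Agent.H13.Cft Fermat.Agent.H19 Fermat.Agent.H97.Shap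

variable {k G : Type u} [CommRing k] [Group G]

/-- the differential `d⁰` of the inhomogeneous cochains: `(d f)(g) = g • m - m`, `m` the value
of the `0`-cochain `f` -/
theorem sz_d_zero_apply (M : Rep.{u} k G) (f : (Fin 0 → G) → M) (g : Fin 1 → G) (c : Fin 0 → G) :
    (inhomogeneousCochains.d M 0).hom f g = M.ρ (g 0) (f c) - f c := by
  rw [inhomogeneousCochains.d_hom_apply]
  have h2 : ∀ c' : Fin 0 → G, c' = c := fun c' => Subsingleton.elim _ _
  have h3 : (∑ j : Fin (0 + 1), (-1 : k) ^ ((j : ℕ) + 1) • f (Fin.contractNth j (· * ·) g))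
      = ∑ j : Fin 1, (-1 : k) ^ ((j : ℕ) + 1) • f (Fin.contractNth j (· * ·) g) := rfl
  rw [h3, Fin.sum_univ_one, h2 (fun i => g i.succ), h2 (Fin.contractNth 0 _ _)]
  simp [sub_eq_add_neg]

/-- a level `0`-cocycle has a `G`-invariant value -/
theorem sz_invariant_of_lvlD_eq_zero (𝒰 : LevelSys G) (M : Rep.{u} k G)
    (x : lvlCochains 𝒰 M 0) (hx : lvlD 𝒰 M 0 x = 0) (c : Fin 0 → G) (g : G) :
    M.ρ g (x.1 c) = x.1 c := by
  have h1 : ((lvlD 𝒰 M 0 x : lvlCochains 𝒰 M 1) : (Fin 1 → G) → M) (fun _ => g) = 0 := by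
    rw [hx]; rfl
  rw [lvlD_coe, sz_d_zero_apply M x.1 _ c] at h1
  exact sub_eq_zero.mp h1

/-- a level `0`-cochain with `G`-invariant value is a cocycle -/
theorem sz_lvlD_eq_zero_of_invariant (𝒰 : LevelSys G) (M : Rep.{u} k G)
    (x : lvlCochains 𝒰 M 0) (hx : ∀ (c : Fin 0 → G) (g : G), M.ρ g (x.1 c) = x.1 c) :
    lvlD 𝒰 M 0 x = 0 := by
  apply Subtype.ext
  funext g
  rw [lvlD_coe, sz_d_zero_apply M x.1 g (fun i => g i.succ), hx, sub_self]
  rfl

/-- the Shapiro map on `0`-cochains is evaluation at `1` -/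
theorem sz_shapiroMap_apply (𝒰 : LevelSys G) (U : Subgroup G) (hU : ∃ N ∈ 𝒰.sets, N ≤ U)
    (A : Rep.{u} k U) (n : ℕ) (x : lvlCochains 𝒰 (Rep.coind U.subtype A) n) (g : Fin n → U) :
    (((shapiroMap 𝒰 U hU A).f n).hom x).1 g = (x.1 (U.subtype ∘ g)).1 1 := rfl

/-- **SH-2b** Shapiro in degree `0`. -/
theorem shapiroZero : ShapiroZeroStatement.{u} := by
  intro k G _ _ 𝒰 U hU A _
  rw [ConcreteCategory.isIso_iff_bijective]
  constructor
  · intro z z' h
    obtain ⟨x, hx, rfl⟩ := lvlHMk_surjective 𝒰 _ 0 z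
    obtain ⟨x', hx', rfl⟩ := lvlHMk_surjective 𝒰 _ 0 z'
    have h' : (HomologicalComplex.homologyMap (shapiroMap 𝒰 U hU A) 0).hom
        (lvlHMk 𝒰 _ 0 x hx) = (HomologicalComplex.homologyMap (shapiroMap 𝒰 U hU A) 0).hom
        (lvlHMk 𝒰 _ 0 x' hx') := h
    rw [lvlHMk_naturality, lvlHMk_naturality, lvlHMk_zero_eq_iff] at h'
    rw [lvlHMk_zero_eq_iff]
    apply Subtype.ext
    funext c
    apply Subtype.ext
    funext g
    have e1 := sz_invariant_of_lvlD_eq_zero 𝒰 _ x hx c g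
    have e2 := sz_invariant_of_lvlD_eq_zero 𝒰 _ x' hx' c g
    have e1' : (x.1 c).1 (1 * g) = (x.1 c).1 1 := congrArg (fun f => f.1 1) e1
    have e2' : (x'.1 c).1 (1 * g) = (x'.1 c).1 1 := congrArg (fun f => f.1 1) e2
    rw [one_mul] at e1' e2'
    rw [e1', e2']
    have h3 := congrArg (fun y : lvlCochains (𝒰.restrict U hU) A 0 => y.1 (fun i => i.elim0)) h'
    have hc : ∀ c' : Fin 0 → G, c' = c := fun c' => Subsingleton.elim _ _
    have h4 : (x.1 (U.subtype ∘ fun i : Fin 0 => i.elim0)).1 1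
        = (x'.1 (U.subtype ∘ fun i : Fin 0 => i.elim0)).1 1 := h3
    rw [hc (U.subtype ∘ _)] at h4
    exact h4
  · intro z
    obtain ⟨y, hy, rfl⟩ := lvlHMk_surjective (𝒰.restrict U hU) A 0 z
    have hinv : ∀ (c : Fin 0 → U) (u : U), A.ρ u (y.1 c) = y.1 c :=
      fun c u => sz_invariant_of_lvlD_eq_zero _ A y hy c u
    let a : A := y.1 (fun i => i.elim0)
    have ha : ∀ u : U, A.ρ u a = a := fun u => hinv _ u
    let f : Rep.coind U.subtype A := ⟨fun _ => a, fun u _ => (ha u).symm⟩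
    have hf : ∀ g : G, (Rep.coind U.subtype A).ρ g f = f := fun g => Subtype.ext rfl
    obtain ⟨N, hN⟩ := 𝒰.nonempty
    let x : lvlCochains 𝒰 (Rep.coind U.subtype A) 0 :=
      ⟨fun _ => f, N, hN, fun _ _ _ => rfl, fun _ s _ => hf s⟩
    have hx : lvlD 𝒰 (Rep.coind U.subtype A) 0 x = 0 :=
      sz_lvlD_eq_zero_of_invariant 𝒰 _ x (fun _ g => hf g)
    refine ⟨lvlHMk 𝒰 _ 0 x hx, ?_⟩
    show (HomologicalComplex.homologyMap (shapiroMap 𝒰 U hU A) 0).hom (lvlHMk 𝒰 _ 0 x hx) = _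
    rw [lvlHMk_naturality, lvlHMk_zero_eq_iff]
    apply Subtype.ext
    funext c
    rw [sz_shapiroMap_apply]
    show a = y.1 c
    exact congrArg y.1 (Subsingleton.elim _ _)

end Fermat.Agent.H59.Shap
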