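/-
P-GENUS (S24), GEN-14 part (B): local complex analysis at a fixed point of a Moebius map.
Mathlib only.  (helper59)
-/
import Mathlib

set_option autoImplicit false

noncomputable section

open UpperHalfPlane Filter Topology
open scoped MatrixGroups

namespace Fermat.Agent.H59

/-- Trailing coefficient of `ψ - ψ x` at `x` is `ψ'(x)` when the latter is nonzero. -/
theorem trailingCoeff_sub_eq_deriv {ψ : ℂ → ℂ} {x : ℂ} (hψ : AnalyticAt ℂ ψ x)
    (hψ' : deriv ψ x ≠ 0) :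
    meromorphicTrailingCoeffAt (fun z => ψ z - ψ x) x = deriv ψ x := by
  have han : AnalyticAt ℂ (fun z => ψ z - ψ x) x := by fun_prop
  have hord : meromorphicOrderAt (fun z => ψ z - ψ x) x = 1 := by
    rw [han.meromorphicOrderAt_eq, hψ.analyticOrderAt_sub_eq_one_of_deriv_ne_zero hψ']
    rfl
  have h1 := han.meromorphicAt.tendsto_nhds_meromorphicTrailingCoeffAt
  rw [hord] at h1
  have h2 : Tendsto (slope ψ x) (𝓝[≠] x) (𝓝 (deriv ψ x)) :=
    hasDerivAt_iff_tendsto_slope.1 hψ.differentiableAt.hasDerivAt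
  refine tendsto_nhds_unique (h1.congr' ?_) h2
  filter_upwards with z
  simp [slope_def_field, div_eq_inv_mul]

/-- **(B2)** If `H` is meromorphic of finite order `n` at a fixed point `x` of the analytic map
`ψ` (with `ψ'(x) ≠ 0`) and `H ∘ ψ = H` near `x`, then `ψ'(x) ^ n = 1`. -/
theorem deriv_zpow_eq_one_of_comp_eq {ψ H : ℂ → ℂ} {x : ℂ} (hψ : AnalyticAt ℂ ψ x)
    (hψx : ψ x = x) (hψ' : deriv ψ x ≠ 0) (hH : MeromorphicAt H x) {n : ℤ}
    (hn : meromorphicOrderAt H x = n) (hinv : H ∘ ψ =ᶠ[𝓝[≠] x] H) :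
    deriv ψ x ^ n = 1 := by
  have hnc : ¬ EventuallyConst ψ (𝓝 x) := by
    intro hc
    apply hψ'
    have : ψ =ᶠ[𝓝 x] fun _ => ψ x := by
      rw [eventuallyConst_iff_exists_eventuallyEq] at hc
      obtain ⟨c, hc⟩ := hc
      have hcx : ψ x = c := hc.self_of_nhds
      filter_upwards [hc] with z hz
      rw [hz, hcx]
    rw [this.deriv_eq]
    simp
  have hH' : MeromorphicAt H (ψ x) := by rwa [hψx]
  have h1 := hH'.meromorphicTrailingCoeffAt_comp hψ hnc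
  rw [meromorphicTrailingCoeffAt_congr_nhdsNE hinv, hψx] at h1
  have h2 : meromorphicTrailingCoeffAt (fun z => ψ z - x) x = deriv ψ x := by
    have := trailingCoeff_sub_eq_deriv hψ hψ'
    rwa [hψx] at this
  rw [h2, hn] at h1
  have hne : meromorphicTrailingCoeffAt H x ≠ 0 :=
    hH.meromorphicTrailingCoeffAt_ne_zero (by rw [hn]; exact WithTop.coe_ne_top)
  have h3 : (deriv ψ x ^ n - 1) * meromorphicTrailingCoeffAt H x = 0 := by
    have : (deriv ψ x ^ n) * meromorphicTrailingCoeffAt H x = meromorphicTrailingCoeffAt H x := by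
      simpa [smul_eq_mul] using h1.symm
    rw [sub_mul, this]; simp
  rcases mul_eq_zero.1 h3 with h | h
  · exact sub_eq_zero.1 h
  · exact absurd h hne

/-- The Moebius map of `g ∈ SL(2,ℤ)` as a function `ℂ → ℂ` (junk outside the upper half plane). -/
def moebC (g : SL(2, ℤ)) : ℂ → ℂ := fun z => ((g • ofComplex z : ℍ) : ℂ)

/-- The multiplier `1/(c z₀ + d)²` of `g` at `z₀`. -/
def mult (g : SL(2, ℤ)) (z₀ : ℍ) : ℂ := 1 / ((g 1 0 : ℂ) * z₀ + (g 1 1 : ℂ)) ^ 2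

theorem mapGL_det_eq_one (g : SL(2, ℤ)) : (Matrix.SpecialLinearGroup.mapGL ℝ g).val.det = 1 := by
  rw [← Matrix.GeneralLinearGroup.val_det_apply, Matrix.SpecialLinearGroup.det_mapGL]
  rfl

theorem mapGL_det_pos (g : SL(2, ℤ)) : 0 < (Matrix.SpecialLinearGroup.mapGL ℝ g).val.det := by
  rw [mapGL_det_eq_one]; exact one_pos

theorem moebC_coe (g : SL(2, ℤ)) (z : ℍ) : moebC g (z : ℂ) = ((g • z : ℍ) : ℂ) := by
  simp [moebC]

theorem moebC_fixed {g : SL(2, ℤ)} {z₀ : ℍ} (hg : g • z₀ = z₀) : moebC g (z₀ : ℂ) = z₀ := by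
  rw [moebC_coe, hg]

theorem ofComplex_moebC (g : SL(2, ℤ)) (z : ℂ) : ofComplex (moebC g z) = g • ofComplex z := by
  simp [moebC]

theorem moebC_mul (g h : SL(2, ℤ)) : moebC (g * h) = moebC g ∘ moebC h := by
  funext z
  simp [moebC, mul_smul]

theorem moebC_one : moebC 1 = fun z => ((ofComplex z : ℍ) : ℂ) := by
  funext z
  simp [moebC]

theorem analyticAt_moebC (g : SL(2, ℤ)) (z₀ : ℍ) : AnalyticAt ℂ (moebC g) z₀ :=
  UpperHalfPlane.analyticAt_smul (mapGL_det_pos g) z₀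

theorem deriv_moebC (g : SL(2, ℤ)) (z₀ : ℍ) : deriv (moebC g) z₀ = mult g z₀ := by
  have h := UpperHalfPlane.deriv_smul (mapGL_det_pos g) z₀
  have h3 : moebC g =
      (fun z : ℂ => (((Matrix.SpecialLinearGroup.mapGL ℝ g) • ofComplex z : ℍ) : ℂ)) := rfl
  rw [h3, h, mapGL_det_eq_one]
  simp [denom, mult]

theorem mult_ne_zero (g : SL(2, ℤ)) (z₀ : ℍ) : mult g z₀ ≠ 0 := by
  rw [← deriv_moebC]
  exact UpperHalfPlane.deriv_smul_ne_zero (mapGL_det_pos g) z₀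

theorem mult_mul (g h : SL(2, ℤ)) (z₀ : ℍ) : mult (g * h) z₀ = mult g (h • z₀) * mult h z₀ := by
  rw [← deriv_moebC, ← deriv_moebC, ← deriv_moebC, moebC_mul, ← moebC_coe]
  exact deriv_comp _ (by rw [moebC_coe]; exact (analyticAt_moebC g _).differentiableAt)
    (analyticAt_moebC h z₀).differentiableAt

theorem mult_one (z₀ : ℍ) : mult 1 z₀ = 1 := by
  simp [mult]

theorem pow_smul_fixed {g : SL(2, ℤ)} {z₀ : ℍ} (hg : g • z₀ = z₀) (k : ℕ) : g ^ k • z₀ = z₀ := by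
  induction k with
  | zero => simp
  | succ k ih => rw [pow_succ, mul_smul, hg, ih]

theorem mult_pow {g : SL(2, ℤ)} {z₀ : ℍ} (hg : g • z₀ = z₀) (k : ℕ) :
    mult (g ^ k) z₀ = mult g z₀ ^ k := by
  induction k with
  | zero => simp [mult_one]
  | succ k ih => rw [pow_succ, mult_mul, hg, ih, pow_succ]



theorem sq_eq_neg_one_of_S_fixed {z₀ : ℍ} (h : ModularGroup.S • z₀ = z₀) : (z₀ : ℂ) ^ 2 = -1 := by
  have h1 := congrArg (fun w : ℍ => (w : ℂ)) h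
  simp only [modular_S_smul] at h1
  have hz : (z₀ : ℂ) ≠ 0 := ne_zero z₀
  have h2 : (-(z₀ : ℂ))⁻¹ = z₀ := h1
  have h3 : (-(z₀ : ℂ))⁻¹ * (-(z₀ : ℂ)) = 1 := inv_mul_cancel₀ (neg_ne_zero.2 hz)
  rw [h2] at h3
  linear_combination -h3

theorem mult_S {z₀ : ℍ} (h : ModularGroup.S • z₀ = z₀) : mult ModularGroup.S z₀ = -1 := by
  have h2 := sq_eq_neg_one_of_S_fixed h
  have e10 : (ModularGroup.S 1 0 : ℤ) = 1 := by simp [ModularGroup.S]
  have e11 : (ModularGroup.S 1 1 : ℤ) = 0 := by simp [ModularGroup.S]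
  simp only [mult, e10, e11]
  push_cast
  rw [one_mul, add_zero, h2]
  norm_num

theorem quad_of_ST_fixed {z₀ : ℍ} (h : (ModularGroup.S * ModularGroup.T) • z₀ = z₀) :
    (z₀ : ℂ) ^ 2 + z₀ + 1 = 0 := by
  have h1 := congrArg (fun w : ℍ => (w : ℂ)) h
  simp only [mul_smul, modular_S_smul, modular_T_smul] at h1
  have h2 : (-((1 : ℝ) +ᵥ z₀ : ℍ) : ℂ)⁻¹ = z₀ := h1
  rw [coe_vadd] at h2
  have hne : (((1 : ℝ) : ℂ) + (z₀ : ℂ)) ≠ 0 := by
    intro h0
    have := congrArg Complex.im h0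
    simp at this
    exact (ne_of_gt z₀.im_pos) this
  have h3 : (-(((1 : ℝ) : ℂ) + (z₀ : ℂ)))⁻¹ * (-(((1 : ℝ) : ℂ) + (z₀ : ℂ))) = 1 :=
    inv_mul_cancel₀ (neg_ne_zero.2 hne)
  rw [h2] at h3
  push_cast at h3
  linear_combination -h3

theorem mult_ST_primitive {z₀ : ℍ} (h : (ModularGroup.S * ModularGroup.T) • z₀ = z₀) :
    IsPrimitiveRoot (mult (ModularGroup.S * ModularGroup.T) z₀) 3 := by
  have hq := quad_of_ST_fixed h
  have hz : (z₀ : ℂ) ≠ 0 := ne_zero z₀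
  have e10 : ((ModularGroup.S * ModularGroup.T) 1 0 : ℤ) = 1 := by
    simp [Matrix.SpecialLinearGroup.coe_mul, ModularGroup.coe_S, ModularGroup.coe_T,
      Matrix.mul_apply, Fin.sum_univ_two]
  have e11 : ((ModularGroup.S * ModularGroup.T) 1 1 : ℤ) = 1 := by
    simp [Matrix.SpecialLinearGroup.coe_mul, ModularGroup.coe_S, ModularGroup.coe_T,
      Matrix.mul_apply, Fin.sum_univ_two]
  have hm : mult (ModularGroup.S * ModularGroup.T) z₀ = 1 / (z₀ : ℂ) := by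
    simp only [mult, e10, e11]
    push_cast
    have : ((1 : ℂ) * (z₀ : ℂ) + 1) ^ 2 = z₀ := by linear_combination hq
    rw [this]
  have hz3 : (z₀ : ℂ) ^ 3 = 1 := by linear_combination ((z₀ : ℂ) - 1) * hq
  have him : (z₀ : ℂ).im ≠ 0 := ne_of_gt z₀.im_pos
  have hz1 : (z₀ : ℂ) ≠ 1 := by
    intro h1; apply him; rw [h1]; simp
  have hzm1 : (z₀ : ℂ) ≠ -1 := by
    intro h1; apply him; rw [h1]; simp
  rw [hm]
  refine IsPrimitiveRoot.mk_of_lt _ (by norm_num) ?_ ?_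
  · rw [one_div, inv_pow, hz3, inv_one]
  · intro l hl0 hl3 hl
    interval_cases l
    · apply hz1
      rw [pow_one, one_div, inv_eq_one] at hl
      exact hl
    · rw [one_div, inv_pow, inv_eq_one] at hl
      -- z² = 1 and z² + z + 1 = 0 → z = -2, contradiction with im
      apply him
      have : (z₀ : ℂ) = -2 := by linear_combination hq - hl
      rw [this]; simp

/-- **(B1)** Order of `h ∘ g` at `z₀` equals the order of `h` at `g • z₀`. -/
theorem order_comp_smul (g : SL(2, ℤ)) (z₀ : ℍ) (h : ℍ → ℂ) :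
    meromorphicOrderAt (fun z : ℂ => h (g • ofComplex z)) (z₀ : ℂ) =
      meromorphicOrderAt (fun z : ℂ => h (ofComplex z)) ((g • z₀ : ℍ) : ℂ) :=
  UpperHalfPlane.meromorphicOrderAt_comp_smul (f := h) (τ := z₀) (mapGL_det_pos g)

theorem order_comp_smul_of_fixed {g : SL(2, ℤ)} {z₀ : ℍ} (hg : g • z₀ = z₀) (h : ℍ → ℂ) :
    meromorphicOrderAt (fun z : ℂ => h (g • ofComplex z)) (z₀ : ℂ) =
      meromorphicOrderAt (fun z : ℂ => h (ofComplex z)) (z₀ : ℂ) := by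
  rw [order_comp_smul, hg]

/-- Meromorphy of `h ∘ g` at `z₀` from meromorphy of `h` at `g • z₀`. -/
theorem meromorphicAt_comp_smul (g : SL(2, ℤ)) (z₀ : ℍ) (h : ℍ → ℂ)
    (hh : MeromorphicAt (fun z : ℂ => h (ofComplex z)) ((g • z₀ : ℍ) : ℂ)) :
    MeromorphicAt (fun z : ℂ => h (g • ofComplex z)) (z₀ : ℂ) := by
  have h1 : (fun z : ℂ => h (g • ofComplex z)) = (fun z : ℂ => h (ofComplex z)) ∘ moebC g := by
    funext z
    simp [moebC]
  rw [h1]
  exact MeromorphicAt.comp_analyticAt (by rwa [moebC_coe]) (analyticAt_moebC g z₀)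

/-- Arithmetic: `ζ` a primitive `e₀`-th root of unity and `(ζ^k)^n = 1` imply
`e₀ / gcd(e₀,k) ∣ n`. -/
theorem dvd_of_primitive_zpow {ζ : ℂ} {e₀ : ℕ} (he : 0 < e₀) (hζ : IsPrimitiveRoot ζ e₀)
    (k : ℕ) (n : ℤ) (h : (ζ ^ k) ^ n = 1) :
    ∃ m : ℤ, n = ((e₀ / Nat.gcd e₀ k : ℕ) : ℤ) * m := by
  have h1 : ζ ^ ((k : ℤ) * n) = 1 := by
    rw [zpow_mul, zpow_natCast]; exact h
  have h2 : (e₀ : ℤ) ∣ (k : ℤ) * n := (hζ.zpow_eq_one_iff_dvd _).1 h1
  have hg : 0 < Nat.gcd e₀ k := Nat.gcd_pos_of_pos_left k he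
  have hcop : Nat.Coprime (e₀ / Nat.gcd e₀ k) (k / Nat.gcd e₀ k) :=
    Nat.coprime_div_gcd_div_gcd hg
  have h3 : e₀ ∣ k * n.natAbs := by
    have := Int.natAbs_dvd_natAbs.2 h2
    simpa [Int.natAbs_mul] using this
  have he' : e₀ = Nat.gcd e₀ k * (e₀ / Nat.gcd e₀ k) :=
    (Nat.mul_div_cancel' (Nat.gcd_dvd_left e₀ k)).symm
  have hk' : k = Nat.gcd e₀ k * (k / Nat.gcd e₀ k) :=
    (Nat.mul_div_cancel' (Nat.gcd_dvd_right e₀ k)).symm
  have h4 : e₀ / Nat.gcd e₀ k ∣ (k / Nat.gcd e₀ k) * n.natAbs := by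
    have h5 : Nat.gcd e₀ k * (e₀ / Nat.gcd e₀ k) ∣
        Nat.gcd e₀ k * ((k / Nat.gcd e₀ k) * n.natAbs) := by
      rw [← mul_assoc, ← he', ← hk']; exact h3
    exact (Nat.mul_dvd_mul_iff_left hg).1 h5
  have h6 : e₀ / Nat.gcd e₀ k ∣ n.natAbs := hcop.dvd_of_dvd_mul_left h4
  have h7 : ((e₀ / Nat.gcd e₀ k : ℕ) : ℤ) ∣ n := Int.natCast_dvd.2 h6
  obtain ⟨m, hm⟩ := h7
  exact ⟨m, hm⟩

/-- **(B, final form)** Let `g ∈ SL(2,ℤ)` fix `z₀`, with multiplier a primitive `e₀`-th root of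
unity.  If `h : ℍ → ℂ` is meromorphic of finite order `n` at `z₀` and invariant under `g ^ k`,
then `e₀ / gcd(e₀, k)` divides `n`. -/
theorem order_dvd_of_invariant {g : SL(2, ℤ)} {z₀ : ℍ} (hg : g • z₀ = z₀) {e₀ : ℕ}
    (he : 0 < e₀) (hζ : IsPrimitiveRoot (mult g z₀) e₀) (k : ℕ) (h : ℍ → ℂ)
    (hmer : MeromorphicAt (fun z : ℂ => h (ofComplex z)) (z₀ : ℂ)) {n : ℤ}
    (hn : meromorphicOrderAt (fun z : ℂ => h (ofComplex z)) (z₀ : ℂ) = n)
    (hinv : ∀ z : ℍ, h (g ^ k • z) = h z) :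
    ∃ m : ℤ, n = ((e₀ / Nat.gcd e₀ k : ℕ) : ℤ) * m := by
  have hfix : g ^ k • z₀ = z₀ := pow_smul_fixed hg k
  have hcomp : (fun z : ℂ => h (ofComplex z)) ∘ moebC (g ^ k) = fun z : ℂ => h (ofComplex z) := by
    funext z
    simp only [Function.comp_apply, ofComplex_moebC, hinv]
  have hd : deriv (moebC (g ^ k)) (z₀ : ℂ) = mult g z₀ ^ k := by
    rw [deriv_moebC, mult_pow hg]
  have hd0 : deriv (moebC (g ^ k)) (z₀ : ℂ) ≠ 0 := by
    rw [deriv_moebC]; exact mult_ne_zero _ _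
  have key := deriv_zpow_eq_one_of_comp_eq (analyticAt_moebC (g ^ k) z₀) (moebC_fixed hfix) hd0
    hmer hn (by rw [hcomp])
  rw [hd] at key
  exact dvd_of_primitive_zpow he hζ k n key

theorem mult_one_primitive (z₀ : ℍ) : IsPrimitiveRoot (mult 1 z₀) 1 := by
  rw [mult_one]; exact IsPrimitiveRoot.one

theorem mult_S_primitive {z₀ : ℍ} (h : ModularGroup.S • z₀ = z₀) :
    IsPrimitiveRoot (mult ModularGroup.S z₀) 2 := by
  rw [mult_S h]
  exact IsPrimitiveRoot.neg_one 0 (by norm_num)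

end Fermat.Agent.H59

end
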