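/-
P-GENUS (S24), GEN-14 part (B): the lemmas of `Gen14Local` in the exact shapes (U1)-(U3)
requested by helper33 (Moebius of `g⁻¹`, hypothesis on `denom ^ 2`).  (helper59)
-/
import Fermat.Agent.H59.Gen14Local
set_option autoImplicit false
noncomputable section
open UpperHalfPlane Filter Topology
open scoped MatrixGroups

namespace Fermat.Agent.H59

theorem coe_GL_eq (g : SL(2, ℤ)) : (g : GL (Fin 2) ℝ) = Matrix.SpecialLinearGroup.mapGL ℝ g := rfl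

theorem denom_sq_eq_inv_mult (g : SL(2, ℤ)) (z₀ : ℍ) :
    (denom (g : GL (Fin 2) ℝ) (z₀ : ℂ)) ^ 2 = (mult g z₀)⁻¹ := by
  simp [mult, denom]

theorem mult_inv_of_fixed {g : SL(2, ℤ)} {z₀ : ℍ} (hfix : g • z₀ = z₀) :
    mult g⁻¹ z₀ = (mult g z₀)⁻¹ := by
  have h := mult_mul g⁻¹ g z₀
  rw [inv_mul_cancel, mult_one, hfix] at h
  exact eq_inv_of_mul_eq_one_left h.symm

theorem inv_smul_fixed {g : SL(2, ℤ)} {z₀ : ℍ} (hfix : g • z₀ = z₀) : g⁻¹ • z₀ = z₀ := by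
  rw [inv_smul_eq_iff, hfix]

/-- (U1) in helper33's shape. -/
theorem order_comp_moeb (g : SL(2, ℤ)) (z₀ : ℍ) (hfix : g • z₀ = z₀) (H : ℂ → ℂ) :
    meromorphicOrderAt (H ∘ fun z : ℂ => (((g⁻¹ • ofComplex z : ℍ)) : ℂ)) (z₀ : ℂ)
      = meromorphicOrderAt H (z₀ : ℂ) := by
  have h1 : (fun z : ℂ => (((g⁻¹ • ofComplex z : ℍ)) : ℂ)) = moebC g⁻¹ := rfl
  rw [h1, meromorphicOrderAt_comp_of_deriv_ne_zero (analyticAt_moebC g⁻¹ z₀)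
    (by rw [deriv_moebC]; exact mult_ne_zero _ _), moebC_fixed (inv_smul_fixed hfix)]

/-- (U2) in helper33's shape (with the harmless extra hypothesis `0 < e₀`). -/
theorem dvd_order_of_invariant (g : SL(2, ℤ)) (z₀ : ℍ) (hfix : g • z₀ = z₀) (e₀ : ℕ)
    (he : 0 < e₀)
    (hζ : IsPrimitiveRoot ((denom (g : GL (Fin 2) ℝ) (z₀ : ℂ)) ^ 2) e₀) (k : ℕ) (H : ℂ → ℂ)
    (hH : MeromorphicAt H (z₀ : ℂ)) (n : ℤ) (hn : meromorphicOrderAt H (z₀ : ℂ) = (n : WithTop ℤ))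
    (hinv : (H ∘ fun z : ℂ => ((((g ^ k)⁻¹ • ofComplex z : ℍ)) : ℂ)) =ᶠ[𝓝[≠] (z₀ : ℂ)] H) :
    ((e₀ / Nat.gcd e₀ k : ℕ) : ℤ) ∣ n := by
  have hfixk : g ^ k • z₀ = z₀ := pow_smul_fixed hfix k
  have hfixk' : (g ^ k)⁻¹ • z₀ = z₀ := inv_smul_fixed hfixk
  have h1 : (fun z : ℂ => ((((g ^ k)⁻¹ • ofComplex z : ℍ)) : ℂ)) = moebC (g ^ k)⁻¹ := rfl
  rw [h1] at hinv
  have hd : deriv (moebC (g ^ k)⁻¹) (z₀ : ℂ) = ((denom (g : GL (Fin 2) ℝ) (z₀ : ℂ)) ^ 2) ^ k := by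
    rw [deriv_moebC, mult_inv_of_fixed hfixk, mult_pow hfix, denom_sq_eq_inv_mult, inv_pow]
  have hd0 : deriv (moebC (g ^ k)⁻¹) (z₀ : ℂ) ≠ 0 := by
    rw [deriv_moebC]; exact mult_ne_zero _ _
  have key := deriv_zpow_eq_one_of_comp_eq (analyticAt_moebC (g ^ k)⁻¹ z₀) (moebC_fixed hfixk')
    hd0 hH hn hinv
  rw [hd] at key
  obtain ⟨m, hm⟩ := dvd_of_primitive_zpow he hζ k n key
  exact ⟨m, hm⟩

/-- (U3) in helper33's shape. -/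
theorem isPrimitiveRoot_S (z₀ : ℍ) (h : ModularGroup.S • z₀ = z₀) :
    IsPrimitiveRoot ((denom (ModularGroup.S : GL (Fin 2) ℝ) (z₀ : ℂ)) ^ 2) 2 := by
  rw [denom_sq_eq_inv_mult]
  exact (mult_S_primitive h).inv

theorem isPrimitiveRoot_ST (z₀ : ℍ) (h : (ModularGroup.S * ModularGroup.T) • z₀ = z₀) :
    IsPrimitiveRoot
      ((denom ((ModularGroup.S * ModularGroup.T : SL(2, ℤ)) : GL (Fin 2) ℝ) (z₀ : ℂ)) ^ 2) 3 := by
  rw [denom_sq_eq_inv_mult]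
  exact (mult_ST_primitive h).inv

theorem isPrimitiveRoot_one (z₀ : ℍ) :
    IsPrimitiveRoot ((denom ((1 : SL(2, ℤ)) : GL (Fin 2) ℝ) (z₀ : ℂ)) ^ 2) 1 := by
  rw [denom_sq_eq_inv_mult]
  exact (mult_one_primitive z₀).inv

end Fermat.Agent.H59
end
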