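import Fermat.Agent.H91.KLNorm.PurityGlue

/-!
# P-ES / KL-N-P: the ADAPTER `UnramifiedNear` ⟹ nondegenerate trace form (helper59)

Setting of `Fermat.Agent.H22.KL` (KLSetting v2) with the instantiation convention of
`Fermat.Agent.H91.KLNorm.Inst` (`R := A[X]` acting by `X ↦ x`, `K := chartField A E x`).

* generic-fibre ring `Rg := (FractionRing A)[X]` with its maps `evRgE`, `evRgK` to `E`, `K₀(x)`
  (reducible local instances `algPolyRg`, `algRgK`, `algRgE`), the three scalar towers,
  `IsLocalization.Away (C ϖ) Rg`, `IsFractionRing Rg K₀(x)`;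
* centre computation `inDisc_of_le`, `isFinitePlace_of_le`: a valuation subring `v ⊇ K₀[x]` with
  `h(x) ∈ 𝔪_v`, `h ∈ (ϖ, g)` prime not associated to `ϖ`, is a finite place in the residue disc of
  `(ϖ, g)` (Gauss lemma);
* `unramifiedAdapter_of : DedekindBridgeVStatement → UnramifiedAdapterStatement`.
-/

set_option autoImplicit false
set_option linter.style.haveILetI false
set_option linter.unusedSectionVars false

noncomputable section

open Polynomial

namespace Fermat.Agent.H59.KLA

open Fermat.Agent.H22.KL
open Fermat.Agent.H91 (TraceNondegAt)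
open Fermat.Agent.H91.KLNorm

section Maps

variable (A : Type) [CommRing A] [IsDomain A]
variable (E : Type) [Field E] [Algebra A E]

/-- `K₀ = Frac A → E`. -/
def frE (hinj : Function.Injective (algebraMap A E)) : FractionRing A →+* E :=
  IsFractionRing.lift (g := algebraMap A E) hinj

theorem frE_algebraMap (hinj : Function.Injective (algebraMap A E)) (a : A) :
    frE A E hinj (algebraMap A (FractionRing A) a) = algebraMap A E a :=
  IsFractionRing.lift_algebraMap hinj a

/-- `K₀[X] → E`, `X ↦ x`. -/
def evRgE (hinj : Function.Injective (algebraMap A E)) (x : E) : (FractionRing A)[X] →+* E :=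
  eval₂RingHom (frE A E hinj) x

theorem evRgE_map (hinj : Function.Injective (algebraMap A E)) (x : E) (p : A[X]) :
    evRgE A E hinj x (p.map (algebraMap A (FractionRing A))) = aeval x p := by
  unfold evRgE
  rw [coe_eval₂RingHom, eval₂_map, aeval_def]
  congr 1
  ext a
  exact frE_algebraMap A E hinj a

theorem evRgE_C (hinj : Function.Injective (algebraMap A E)) (x : E) (a : FractionRing A) :
    evRgE A E hinj x (C a) = frE A E hinj a := by
  unfold evRgE
  rw [coe_eval₂RingHom, eval₂_C]

theorem evRgE_X (hinj : Function.Injective (algebraMap A E)) (x : E) :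
    evRgE A E hinj x X = x := by
  unfold evRgE
  rw [coe_eval₂RingHom, eval₂_X]

theorem algebraMap_mem_chartField (x : E) (a : A) : algebraMap A E a ∈ chartField A E x := by
  have := aeval_mem_chartField A E x (C a)
  rwa [aeval_C] at this

theorem x_mem_chartField (x : E) : x ∈ chartField A E x := by
  have := aeval_mem_chartField A E x (X : A[X])
  rwa [aeval_X] at this

theorem frE_mem_chartField (hinj : Function.Injective (algebraMap A E)) (x : E)
    (a : FractionRing A) : frE A E hinj a ∈ chartField A E x := by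
  obtain ⟨n, d, hd, rfl⟩ := IsFractionRing.div_surjective (A := A) a
  rw [map_div₀, frE_algebraMap, frE_algebraMap]
  exact div_mem (algebraMap_mem_chartField A E x n) (algebraMap_mem_chartField A E x d)

theorem evRgE_mem_chartField (hinj : Function.Injective (algebraMap A E)) (x : E)
    (r : (FractionRing A)[X]) : evRgE A E hinj x r ∈ chartField A E x := by
  induction r using Polynomial.induction_on' with
  | add p q hp hq => rw [map_add]; exact add_mem hp hq
  | monomial n a =>
    rw [← C_mul_X_pow_eq_monomial, map_mul, map_pow, evRgE_C, evRgE_X]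
    exact mul_mem (frE_mem_chartField A E hinj x a) (pow_mem (x_mem_chartField A E x) n)

/-- `K₀[X] → K₀(x)`. -/
def evRgK (hinj : Function.Injective (algebraMap A E)) (x : E) :
    (FractionRing A)[X] →+* ↥(chartField A E x) :=
  (evRgE A E hinj x).codRestrict (chartField A E x) (evRgE_mem_chartField A E hinj x)

/-- `K₀[X]` acts on `E` through `X ↦ x`. -/
@[reducible] def algRgE (hinj : Function.Injective (algebraMap A E)) (x : E) :
    Algebra (FractionRing A)[X] E := (evRgE A E hinj x).toAlgebra

/-- `K₀[X]` acts on `K₀(x)` through `X ↦ x`. -/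
@[reducible] def algRgK (hinj : Function.Injective (algebraMap A E)) (x : E) :
    Algebra (FractionRing A)[X] ↥(chartField A E x) := (evRgK A E hinj x).toAlgebra

/-- `A[X] → K₀[X]`. -/
@[reducible] def algPolyRg : Algebra A[X] (FractionRing A)[X] := Polynomial.algebra A (FractionRing A)

theorem algPolyRg_algebraMap (p : A[X]) :
    letI := algPolyRg A
    algebraMap A[X] (FractionRing A)[X] p = p.map (algebraMap A (FractionRing A)) := rfl

theorem isScalarTower_poly_Rg_K (hinj : Function.Injective (algebraMap A E)) (x : E) :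
    letI := polyAlgK A E x
    letI := algPolyRg A
    letI := algRgK A E hinj x
    IsScalarTower A[X] (FractionRing A)[X] ↥(chartField A E x) := by
  letI := polyAlgK A E x
  letI := algPolyRg A
  letI := algRgK A E hinj x
  refine IsScalarTower.of_algebraMap_eq fun p => Subtype.ext ?_
  exact (evRgE_map A E hinj x p).symm

theorem isScalarTower_Rg_K_E (hinj : Function.Injective (algebraMap A E)) (x : E) :
    letI := algRgK A E hinj x
    letI := algRgE A E hinj x
    IsScalarTower (FractionRing A)[X] ↥(chartField A E x) E := by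
  letI := algRgK A E hinj x
  letI := algRgE A E hinj x
  exact IsScalarTower.of_algebraMap_eq fun p => rfl

theorem isScalarTower_poly_Rg_E (hinj : Function.Injective (algebraMap A E)) (x : E) :
    letI := polyAlgE A E x
    letI := algPolyRg A
    letI := algRgE A E hinj x
    IsScalarTower A[X] (FractionRing A)[X] E := by
  letI := polyAlgE A E x
  letI := algPolyRg A
  letI := algRgE A E hinj x
  refine IsScalarTower.of_algebraMap_eq fun p => ?_
  exact (evRgE_map A E hinj x p).symm

end Maps


section DVR

variable (A : Type) [CommRing A] [IsDomain A] [IsDiscreteValuationRing A]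
variable (E : Type) [Field E] [Algebra A E]

theorem isLocalization_away_fractionRing {ϖ : A} (hϖ : Irreducible ϖ) :
    IsLocalization.Away ϖ (FractionRing A) := by
  refine (IsLocalization.iff_of_le_of_exists_dvd (Submonoid.powers ϖ) (nonZeroDivisors A)
    ?_ ?_).mpr inferInstance
  · rintro _ ⟨n, rfl⟩
    exact mem_nonZeroDivisors_of_ne_zero (pow_ne_zero n hϖ.ne_zero)
  · intro n hn
    have hn0 : n ≠ 0 := nonZeroDivisors.ne_zero hn
    obtain ⟨k, hk⟩ := IsDiscreteValuationRing.associated_pow_irreducible hn0 hϖ
    exact ⟨ϖ ^ k, ⟨k, rfl⟩, hk.dvd⟩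

theorem isLocalization_away_Rg {ϖ : A} (hϖ : Irreducible ϖ) :
    letI := algPolyRg A
    IsLocalization.Away (C ϖ : A[X]) (FractionRing A)[X] := by
  letI := algPolyRg A
  haveI := isLocalization_away_fractionRing A hϖ
  have h := Polynomial.isLocalization (Submonoid.powers ϖ) (FractionRing A)
  have h2 : (Submonoid.powers ϖ).map (C : A →+* A[X]) = Submonoid.powers (C ϖ : A[X]) :=
    Submonoid.map_powers _ _
  rw [h2] at h
  exact h

theorem isFractionRing_Rg_K (hinj : Function.Injective (algebraMap A E)) {ϖ : A}
    (hϖ : Irreducible ϖ) {x : E} (hx : Transcendental A x) :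
    letI := algRgK A E hinj x
    IsFractionRing (FractionRing A)[X] ↥(chartField A E x) := by
  letI := polyAlgK A E x
  letI := algPolyRg A
  letI := algRgK A E hinj x
  haveI := isScalarTower_poly_Rg_K A E hinj x
  haveI := isLocalization_away_Rg A hϖ
  haveI := polyAlg_isFractionRing A E hx
  exact IsFractionRing.isFractionRing_of_isDomain_of_isLocalization
    (Submonoid.powers (C ϖ : A[X])) _ _

theorem isUnit_natCast_Rg [CharZero E] (n : ℕ) (hn : n ≠ 0) : IsUnit ((n : ℕ) : (FractionRing A)[X]) := by
  haveI : CharZero A := ⟨fun n m hnm => by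
    have h1 := congrArg (algebraMap A E) hnm
    rw [map_natCast, map_natCast] at h1
    exact Nat.cast_injective h1⟩
  haveI : CharZero (FractionRing A) :=
    charZero_of_injective_algebraMap (IsFractionRing.injective A (FractionRing A))
  rw [← Polynomial.C_eq_natCast]
  exact Polynomial.isUnit_C.mpr (IsUnit.mk0 _ (Nat.cast_ne_zero.mpr hn))

theorem charZero_chartField [CharZero E] (x : E) : CharZero ↥(chartField A E x) :=
  inferInstance


/-! ## The centre computation -/

theorem natDegree_ne_zero_of_prime {ϖ : A} (hϖ : Irreducible ϖ) {h : A[X]} (hh : Prime h)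
    (hna : ¬ Associated h (C ϖ)) : h.natDegree ≠ 0 := by
  intro h0
  obtain ⟨a, rfl⟩ := natDegree_eq_zero.mp h0
  have ha : Prime a := Polynomial.prime_C_iff.mp hh
  have h1 : Associated a ϖ := IsDiscreteValuationRing.associated_of_irreducible A ha.irreducible hϖ
  exact hna (h1.map (C : A →+* A[X]).toMonoidHom)

theorem isPrimitive_of_prime {ϖ : A} (hϖ : Irreducible ϖ) {h : A[X]} (hh : Prime h)
    (hna : ¬ Associated h (C ϖ)) : h.IsPrimitive :=
  hh.irreducible.isPrimitive (natDegree_ne_zero_of_prime A hϖ hh hna)

theorem irreducible_map_of_prime {ϖ : A} (hϖ : Irreducible ϖ) {h : A[X]} (hh : Prime h)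
    (hna : ¬ Associated h (C ϖ)) : Irreducible (h.map (algebraMap A (FractionRing A))) :=
  (isPrimitive_of_prime A hϖ hh hna).irreducible_iff_irreducible_map_fraction_map.mp
    hh.irreducible

/-- the centre on `K₀[X]` of a valuation subring containing `K₀[x]` -/
def centre (hinj : Function.Injective (algebraMap A E)) (x : E) (v : ValuationSubring E)
    (hRg : ∀ r : (FractionRing A)[X], evRgE A E hinj x r ∈ v) : Ideal (FractionRing A)[X] :=
  Ideal.comap ((evRgE A E hinj x).codRestrict v.toSubring hRg) (IsLocalRing.maximalIdeal v)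

theorem mem_centre_iff (hinj : Function.Injective (algebraMap A E)) (x : E)
    (v : ValuationSubring E)
    (hRg : ∀ r : (FractionRing A)[X], evRgE A E hinj x r ∈ v) (r : (FractionRing A)[X]) :
    r ∈ centre A E hinj x v hRg ↔ evRgE A E hinj x r ∈ v.nonunits := by
  unfold centre
  rw [Ideal.mem_comap, ← ValuationSubring.coe_mem_nonunits_iff]
  rfl

theorem centre_ne_top (hinj : Function.Injective (algebraMap A E)) (x : E)
    (v : ValuationSubring E)
    (hRg : ∀ r : (FractionRing A)[X], evRgE A E hinj x r ∈ v) :
    centre A E hinj x v hRg ≠ ⊤ := by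
  unfold centre
  exact (Ideal.comap_ne_top _ (IsLocalRing.maximalIdeal.isMaximal _).ne_top)

theorem centre_eq_span (hinj : Function.Injective (algebraMap A E)) {ϖ : A} (hϖ : Irreducible ϖ)
    (x : E) {h : A[X]} (hh : Prime h) (hna : ¬ Associated h (C ϖ)) (v : ValuationSubring E)
    (hRg : ∀ r : (FractionRing A)[X], evRgE A E hinj x r ∈ v)
    (hhv : aeval x h ∈ v.nonunits) :
    centre A E hinj x v hRg = Ideal.span {h.map (algebraMap A (FractionRing A))} := by
  have hirr := irreducible_map_of_prime A hϖ hh hna
  haveI hmax : (Ideal.span {h.map (algebraMap A (FractionRing A))}).IsMaximal :=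
    PrincipalIdealRing.isMaximal_of_irreducible hirr
  have hle : Ideal.span {h.map (algebraMap A (FractionRing A))} ≤ centre A E hinj x v hRg := by
    rw [Ideal.span_singleton_le_iff_mem, mem_centre_iff, evRgE_map]
    exact hhv
  exact (hmax.eq_of_le (centre_ne_top A E hinj x v hRg) hle).symm

/-- **centre computation**: a valuation subring `v ⊇ K₀[x]` with `h(x) ∈ 𝔪_v`, `h ∈ (ϖ, g)` a
prime element of `A[X]` not associated to `ϖ`, lies in the residue disc of `(ϖ, g)`. -/
theorem inDisc_of_le (hinj : Function.Injective (algebraMap A E)) {ϖ : A} (hϖ : Irreducible ϖ)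
    (x : E) {g h : A[X]} (hh : Prime h) (hna : ¬ Associated h (C ϖ))
    (hmem : h ∈ Ideal.span {(C ϖ : A[X]), g}) (v : ValuationSubring E)
    (hRg : ∀ r : (FractionRing A)[X], evRgE A E hinj x r ∈ v)
    (hhv : aeval x h ∈ v.nonunits) : InDisc A E ϖ x g v := by
  intro p hp
  have h1 : p.map (algebraMap A (FractionRing A)) ∈ centre A E hinj x v hRg := by
    rw [mem_centre_iff, evRgE_map]; exact hp
  rw [centre_eq_span A E hinj hϖ x hh hna v hRg hhv, Ideal.mem_span_singleton] at h1
  obtain ⟨r, rfl⟩ := (isPrimitive_of_prime A hϖ hh hna).dvd_of_fraction_map_dvd_fraction_map h1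
  obtain ⟨a, b, hab⟩ := Ideal.mem_span_pair.mp hmem
  refine ⟨a * r, b * r, ?_⟩
  rw [← hab]; ring

theorem isFinitePlace_of_le (hinj : Function.Injective (algebraMap A E))
    (x : E) (v : ValuationSubring E) (hv : v ≠ ⊤) (hpir : IsPrincipalIdealRing v)
    (hRg : ∀ r : (FractionRing A)[X], evRgE A E hinj x r ∈ v) : IsFinitePlace A E x v := by
  refine ⟨⟨hv, hpir, fun a _ => ⟨?_, ?_⟩⟩, ?_⟩
  · have := hRg (C (algebraMap A (FractionRing A) a))
    rwa [evRgE_C, frE_algebraMap] at this
  · have := hRg (C (algebraMap A (FractionRing A) a)⁻¹)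
    rwa [evRgE_C, map_inv₀, frE_algebraMap] at this
  · have := hRg X
    rwa [evRgE_X] at this

end DVR

/-! ## The adapter -/

/-- **KL-NORM-DED, valuation form** (helper68): the Dedekind bridge with the unramifiedness
hypothesis stated for the valuation subrings of `E` containing `Rg` and centred at `h`. -/
def DedekindBridgeVStatement : Prop :=
  ∀ (R : Type) [CommRing R] [IsDomain R] [IsIntegrallyClosed R]
    (Rg : Type) [CommRing Rg] [IsDomain Rg] [IsDedekindDomain Rg] [Algebra R Rg]
    (K : Type) [Field K] [CharZero K] [Algebra R K] [IsFractionRing R K] [Algebra Rg K]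
    [IsFractionRing Rg K] [IsScalarTower R Rg K]
    (E : Type) [Field E] [Algebra K E] [Algebra R E] [IsScalarTower R K E]
    [Algebra Rg E] [IsScalarTower Rg K E] [IsScalarTower R Rg E]
    [FiniteDimensional K E] (p : R), Prime p → IsLocalization.Away p Rg →
    (∀ n : ℕ, n ≠ 0 → IsUnit ((n : ℕ) : Rg)) →
    ∀ h : R, Prime h → ¬ Associated h p →
    (∀ v : ValuationSubring E, v ≠ ⊤ → IsPrincipalIdealRing v →
      (∀ r : Rg, algebraMap Rg E r ∈ v) → algebraMap R E h ∈ v.nonunits →
      ∃ t ∈ (algebraMap K E).range, t ≠ 0 ∧ t ∈ v.nonunits ∧ ∀ y ∈ v.nonunits, y / t ∈ v) →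
    TraceNondegAt R K E (Ideal.span {h})

/-- **ADAPTER**: the valuation form of the Dedekind bridge gives `UnramifiedAdapterStatement`. -/
theorem unramifiedAdapter_of (hV : DedekindBridgeVStatement) : UnramifiedAdapterStatement := by
  intro A _ _ _ E _ _ _ hinj ϖ hϖ x hx hGB g _ _ hUN
  letI := polyAlgE A E x
  letI := polyAlgK A E x
  intro h hmem hh hna
  letI := algPolyRg A
  letI := algRgK A E hinj x
  letI := algRgE A E hinj x
  haveI := polyAlg_isScalarTower A E x
  haveI := polyAlg_isFractionRing A E hx
  haveI := finiteDimensional_of_goodBasis A E hGB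
  haveI := isScalarTower_poly_Rg_K A E hinj x
  haveI := isScalarTower_Rg_K_E A E hinj x
  haveI := isScalarTower_poly_Rg_E A E hinj x
  haveI := isFractionRing_Rg_K A E hinj hϖ hx
  refine hV A[X] (FractionRing A)[X] ↥(chartField A E x) E (C ϖ)
    (prime_C_of_irreducible A hϖ) (isLocalization_away_Rg A hϖ) (isUnit_natCast_Rg A E) h hh hna ?_
  intro v hv hpir hRg hhv
  obtain ⟨t, ht, hu⟩ := hUN v (isFinitePlace_of_le A E hinj x v hv hpir hRg)
    (inDisc_of_le A E hinj hϖ x hh hna hmem v hRg hhv)
  exact ⟨t, ⟨⟨t, ht⟩, rfl⟩, hu⟩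

end Fermat.Agent.H59.KLA
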