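import Fermat.Agent.H91.KLNorm.Interfaces

/-!
# P-ES / KL-NORM-TRANSPORT (row 440, helper59): concrete -> abstract dictionary

Setting: `A₀` a DVR, `K₀ = Frac A₀`, `E` a field over `K₀`, `x : E` transcendental over `K₀`.
We make `E`, `K₀(x) = IntermediateField.adjoin K₀ {x}` and `K₀[x] = Algebra.adjoin K₀ {x}`
algebras over the polynomial ring `A₀[X]` via `X ↦ x` and provide the dictionary between the
concrete predicates of `Fermat.Agent.H91.KLNorm` and the abstract ones.
-/

set_option autoImplicit false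
set_option linter.style.haveILetI false
set_option linter.unusedSectionVars false

noncomputable section

open Polynomial IntermediateField
open scoped IntermediateField.algebraAdjoinAdjoin

namespace Fermat.Agent.H59.KLT

open Fermat.Agent.H91 Fermat.Agent.H91.KLNorm

section T1

variable (A₀ : Type) [CommRing A₀]
variable (K₀ : Type) [Field K₀] [Algebra A₀ K₀]
variable {E : Type} [Field E] [Algebra A₀ E] [Algebra K₀ E] [IsScalarTower A₀ K₀ E]

/-- `K₀(x)` -/
abbrev Kx (x : E) : Type := ↥(IntermediateField.adjoin K₀ ({x} : Set E))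

/-- the generator `x` as an element of `K₀(x)` -/
abbrev genK (x : E) : Kx K₀ x := ⟨x, mem_adjoin_simple_self K₀ x⟩

/-- the generator `x` as an element of `K₀[x]` -/
abbrev genR (x : E) : Rg K₀ x := ⟨x, Algebra.self_mem_adjoin_singleton K₀ x⟩

/-- **(T1)** `E` as an `A₀[X]`-algebra via `X ↦ x`. -/
@[reducible] def algPolyE (x : E) : Algebra A₀[X] E := (Polynomial.aeval x).toRingHom.toAlgebra

/-- **(T1)** `K₀(x)` as an `A₀[X]`-algebra via `X ↦ x`. -/
@[reducible] def algPolyK (x : E) : Algebra A₀[X] (Kx K₀ x) :=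
  (Polynomial.aeval (genK K₀ x)).toRingHom.toAlgebra

/-- **(T5)** `K₀[x]` as an `A₀[X]`-algebra via `X ↦ x`. -/
@[reducible] def algPolyR (x : E) : Algebra A₀[X] (Rg K₀ x) :=
  (Polynomial.aeval (genR K₀ x)).toRingHom.toAlgebra

end T1


section T1b

variable (A₀ : Type) [CommRing A₀]
variable (K₀ : Type) [Field K₀] [Algebra A₀ K₀]
variable {E : Type} [Field E] [Algebra A₀ E] [Algebra K₀ E] [IsScalarTower A₀ K₀ E]

theorem algebraMap_polyE (x : E) (h : A₀[X]) :
    letI := algPolyE A₀ x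
    algebraMap A₀[X] E h = aeval x h := rfl

theorem algebraMap_polyK (x : E) (h : A₀[X]) :
    letI := algPolyK A₀ K₀ x
    algebraMap A₀[X] (Kx K₀ x) h = aeval (genK K₀ x) h := rfl

theorem coe_algebraMap_polyK (x : E) (h : A₀[X]) :
    letI := algPolyK A₀ K₀ x
    ((algebraMap A₀[X] (Kx K₀ x) h : Kx K₀ x) : E) = aeval x h := by
  show ((aeval (genK K₀ x) h : Kx K₀ x) : E) = aeval x h
  have := Polynomial.aeval_algHom_apply ((IntermediateField.val _).restrictScalars A₀ :
    Kx K₀ x →ₐ[A₀] E) (genK K₀ x) h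
  simpa using this.symm

theorem isScalarTower_polyKE (x : E) :
    letI := algPolyE A₀ x
    letI := algPolyK A₀ K₀ x
    IsScalarTower A₀[X] (Kx K₀ x) E := by
  letI := algPolyE A₀ x
  letI := algPolyK A₀ K₀ x
  refine IsScalarTower.of_algebraMap_eq fun h => ?_
  exact (coe_algebraMap_polyK A₀ K₀ x h).symm

variable [IsDomain A₀] [IsFractionRing A₀ K₀]

variable {K₀} in
theorem transcendental_base {x : E} (hx : Transcendental K₀ x) : Transcendental A₀ x :=
  hx.restrictScalars (IsFractionRing.injective A₀ K₀)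

variable {K₀} in
theorem aeval_injective {x : E} (hx : Transcendental K₀ x) :
    Function.Injective (aeval x : A₀[X] → E) :=
  transcendental_iff_injective.mp (transcendental_base A₀ hx)

theorem algebraMap_polyK_injective {x : E} (hx : Transcendental K₀ x) :
    letI := algPolyK A₀ K₀ x
    Function.Injective (algebraMap A₀[X] (Kx K₀ x)) := by
  letI := algPolyK A₀ K₀ x
  intro a b hab
  apply aeval_injective A₀ hx
  rw [← coe_algebraMap_polyK A₀ K₀ x a, ← coe_algebraMap_polyK A₀ K₀ x b, hab]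

theorem exists_integer_aeval (x : E) (r : K₀[X]) :
    ∃ (b : A₀) (r' : A₀[X]), b ≠ 0 ∧ aeval x r' = algebraMap A₀ E b * aeval x r := by
  obtain ⟨b, hb, hbr⟩ := IsLocalization.integerNormalization_spec (nonZeroDivisors A₀) r
  refine ⟨b, IsLocalization.integerNormalization (nonZeroDivisors A₀) r,
    nonZeroDivisors.ne_zero hb, ?_⟩
  have h1 := congrArg (aeval x) hbr
  rw [aeval_map_algebraMap] at h1
  rw [h1, ← algebraMap_smul K₀ b r, map_smul, Algebra.smul_def,
    ← IsScalarTower.algebraMap_apply]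

theorem isFractionRing_polyK {x : E} (hx : Transcendental K₀ x) :
    letI := algPolyK A₀ K₀ x
    IsFractionRing A₀[X] (Kx K₀ x) := by
  letI := algPolyK A₀ K₀ x
  haveI : FaithfulSMul A₀[X] (Kx K₀ x) :=
    (faithfulSMul_iff_algebraMap_injective _ _).mpr (algebraMap_polyK_injective A₀ K₀ hx)
  refine IsFractionRing.of_field _ _ fun z => ?_
  obtain ⟨r, s, hrs⟩ := (mem_adjoin_simple_iff K₀ (z : E)).mp z.2
  obtain ⟨b, r', hb, hr'⟩ := exists_integer_aeval A₀ K₀ x r
  obtain ⟨c, s', hc, hs'⟩ := exists_integer_aeval A₀ K₀ x s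
  have hinjE : Function.Injective (algebraMap A₀ E) := by
    rw [IsScalarTower.algebraMap_eq A₀ K₀ E]
    exact (algebraMap K₀ E).injective.comp (IsFractionRing.injective A₀ K₀)
  have hbE : algebraMap A₀ E b ≠ 0 := (map_ne_zero_iff _ hinjE).mpr hb
  have hcE : algebraMap A₀ E c ≠ 0 := (map_ne_zero_iff _ hinjE).mpr hc
  refine ⟨C c * r', C b * s', Subtype.ext ?_⟩
  have h1 : ((algebraMap A₀[X] (Kx K₀ x) (C c * r') / algebraMap A₀[X] (Kx K₀ x) (C b * s') :
      Kx K₀ x) : E) = aeval x (C c * r') / aeval x (C b * s') := by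
    rw [← coe_algebraMap_polyK A₀ K₀ x, ← coe_algebraMap_polyK A₀ K₀ x]
    rfl
  rw [h1, hrs, map_mul, map_mul, aeval_C, aeval_C, hr', hs']
  by_cases hs0 : aeval x s = 0
  · simp [hs0]
  · field_simp

end T1b

section T2

variable (A₀ : Type) [CommRing A₀] [IsDomain A₀] [IsDiscreteValuationRing A₀]

variable {A₀} in
/-- **(T2)** `C ϖ` is a prime element of `A₀[X]`. -/
theorem prime_C_pi {ϖ : A₀} (hϖ : Irreducible ϖ) : Prime (C ϖ : A₀[X]) :=
  Polynomial.prime_C_iff.mpr hϖ.prime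

variable {A₀} in
/-- **(T2)** `A₀[X] / (ϖ) = (A₀ / ϖ)[X]` is a principal ideal ring. -/
theorem isPrincipalIdealRing_quot {ϖ : A₀} (hϖ : Irreducible ϖ) :
    IsPrincipalIdealRing (A₀[X] ⧸ Ideal.span {(C ϖ : A₀[X])}) := by
  haveI hmax : (Ideal.span {ϖ} : Ideal A₀).IsMaximal :=
    PrincipalIdealRing.isMaximal_of_irreducible hϖ
  letI : Field (A₀ ⧸ (Ideal.span {ϖ} : Ideal A₀)) := Ideal.Quotient.field _
  have hmap : (Ideal.span {ϖ} : Ideal A₀).map (C : A₀ →+* A₀[X]) = Ideal.span {C ϖ} := by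
    rw [Ideal.map_span, Set.image_singleton]
  let e := (Ideal.polynomialQuotientEquivQuotientPolynomial (Ideal.span {ϖ} : Ideal A₀)).trans
    (Ideal.quotEquivOfEq hmap)
  exact IsPrincipalIdealRing.of_surjective e.toRingHom e.surjective

end T2

section T3

variable (A₀ : Type) [CommRing A₀]
variable {E : Type} [Field E] [Algebra A₀ E]

/-- the generator `x` as an element of `A₀[x]` -/
abbrev genA (x : E) : ↥(Algebra.adjoin A₀ ({x} : Set E)) :=
  ⟨x, Algebra.self_mem_adjoin_singleton A₀ x⟩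

/-- `A₀[x]` as an `A₀[X]`-algebra via `X ↦ x`. -/
@[reducible] def algPolyA (x : E) : Algebra A₀[X] ↥(Algebra.adjoin A₀ ({x} : Set E)) :=
  (Polynomial.aeval (genA A₀ x)).toRingHom.toAlgebra

theorem coe_algebraMap_polyA (x : E) (h : A₀[X]) :
    letI := algPolyA A₀ x
    ((algebraMap A₀[X] ↥(Algebra.adjoin A₀ ({x} : Set E)) h :
      ↥(Algebra.adjoin A₀ ({x} : Set E))) : E) = aeval x h := by
  show ((aeval (genA A₀ x) h : ↥(Algebra.adjoin A₀ ({x} : Set E))) : E) = aeval x h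
  have := Polynomial.aeval_algHom_apply (Subalgebra.val (Algebra.adjoin A₀ ({x} : Set E)))
    (genA A₀ x) h
  simpa using this.symm

theorem algebraMap_polyA_surjective (x : E) :
    letI := algPolyA A₀ x
    Function.Surjective (algebraMap A₀[X] ↥(Algebra.adjoin A₀ ({x} : Set E))) := by
  letI := algPolyA A₀ x
  rintro ⟨s, hs⟩
  have hs' := hs
  rw [Algebra.adjoin_singleton_eq_range_aeval] at hs'
  obtain ⟨p, hp⟩ := hs'
  refine ⟨p, Subtype.ext ?_⟩
  rw [coe_algebraMap_polyA]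
  exact hp

theorem mem_adjoin_iff_exists_aeval (x d : E) :
    d ∈ Algebra.adjoin A₀ ({x} : Set E) ↔ ∃ p : A₀[X], aeval x p = d := by
  rw [Algebra.adjoin_singleton_eq_range_aeval]
  rfl

/-- **(T3a)** integrality over `A₀[X]` (acting through `X ↦ x`) is integrality over `A₀[x]`. -/
theorem isIntegral_poly_iff (x y : E) :
    letI := algPolyE A₀ x
    IsIntegral A₀[X] y ↔ IsIntA A₀ x y := by
  letI := algPolyE A₀ x
  letI := algPolyA A₀ x
  haveI : IsScalarTower A₀[X] ↥(Algebra.adjoin A₀ ({x} : Set E)) E :=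
    IsScalarTower.of_algebraMap_eq fun h => (coe_algebraMap_polyA A₀ x h).symm
  constructor
  · intro h
    exact h.tower_top
  · intro h
    haveI : Algebra.IsIntegral A₀[X] ↥(Algebra.adjoin A₀ ({x} : Set E)) :=
      Algebra.isIntegral_of_surjective (algebraMap_polyA_surjective A₀ x)
    exact isIntegral_trans y h

/-- **(T3b)**, easy direction. -/
theorem inPiA_of_dvd (ϖ : A₀) (x : E) {h : A₀[X]} (hd : C ϖ ∣ h) :
    InPiA A₀ ϖ x (aeval x h) := by
  obtain ⟨h', rfl⟩ := hd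
  refine ⟨aeval x h', (mem_adjoin_iff_exists_aeval A₀ x _).mpr ⟨h', rfl⟩, ?_⟩
  rw [map_mul, aeval_C]

/-- **(T3b)** divisibility by `C ϖ` in `A₀[X]` is divisibility by `ϖ` in `A₀[x]`. -/
theorem dvd_iff_inPiA (ϖ : A₀) {x : E} (hinj : Function.Injective (aeval x : A₀[X] → E))
    (h : A₀[X]) : C ϖ ∣ h ↔ InPiA A₀ ϖ x (aeval x h) := by
  refine ⟨inPiA_of_dvd A₀ ϖ x, ?_⟩
  rintro ⟨d', hd', hd⟩
  obtain ⟨p, rfl⟩ := (mem_adjoin_iff_exists_aeval A₀ x _).mp hd'
  refine ⟨p, hinj ?_⟩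
  rw [hd, map_mul, aeval_C]

/-- **(T3c)** the abstract Gauss closure is the concrete `C`. -/
theorem inGaussClosure_iff_inC (ϖ : A₀) {x : E}
    (hinj : Function.Injective (aeval x : A₀[X] → E)) (y : E) :
    letI := algPolyE A₀ x
    InGaussClosure A₀[X] E (C ϖ) y ↔ InC A₀ ϖ x y := by
  letI := algPolyE A₀ x
  constructor
  · rintro ⟨h, hh, hint⟩
    refine ⟨aeval x h, (mem_adjoin_iff_exists_aeval A₀ x _).mpr ⟨h, rfl⟩, ?_, ?_⟩
    · exact fun hc => hh ((dvd_iff_inPiA A₀ ϖ hinj h).mpr hc)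
    · exact (isIntegral_poly_iff A₀ x _).mp hint
  · rintro ⟨d, hd, hnd, hint⟩
    obtain ⟨h, rfl⟩ := (mem_adjoin_iff_exists_aeval A₀ x _).mp hd
    refine ⟨h, fun hc => hnd (inPiA_of_dvd A₀ ϖ x hc), ?_⟩
    exact (isIntegral_poly_iff A₀ x _).mpr hint

end T3

end Fermat.Agent.H59.KLT
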