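import Mathlib
import Fermat.Agent.H6.S16UB.Interfaces
import Fermat.Prelude.Thm_CongruenceSubgroup_one_mem_strictPeriods_Gamma0

/-!
# S16: algebra of expansions `F z = ∑ bₙ e(n z / h)`

`HasExpS h F B`: the function `F` on the upper half plane has the expansion
`F z = ∑ₙ (coeff n B) e(z/h)ⁿ` (`HasSum`, for every `z`), `B : PowerSeries ℂ`.
Closed under `+`, `-`, scalar multiples, products and powers; the expansion is unique.
-/

set_option autoImplicit false

open UpperHalfPlane Function CongruenceSubgroup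
open scoped Real MatrixGroups ModularForm

noncomputable section

namespace Fermat.Agent.H59

open Fermat.Agent.H6.S16UB (HasExp)

/-- `F z = ∑ₙ (coeff n B) e(z/h)ⁿ` for all `z ∈ ℍ`. -/
def HasExpS (h : ℕ) (F : ℍ → ℂ) (B : PowerSeries ℂ) : Prop :=
  HasExp h F (fun n => PowerSeries.coeff n B)

theorem hasExpS_iff {h : ℕ} {F : ℍ → ℂ} {B : PowerSeries ℂ} :
    HasExpS h F B ↔
      ∀ z : ℍ, HasSum (fun n : ℕ => PowerSeries.coeff n B * Periodic.qParam (h : ℝ) (z : ℂ) ^ n)
        (F z) := Iff.rfl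

/-- the point `z / 2` of the upper half plane -/
def halfPt (z : ℍ) : ℍ := ⟨⟨z.re / 2, z.im / 2⟩, half_pos z.im_pos⟩

theorem coe_halfPt (z : ℍ) : ((halfPt z : ℍ) : ℂ) = (z : ℂ) / 2 := by
  apply Complex.ext
  · show z.re / 2 = ((z : ℂ) / 2).re
    rw [Complex.div_ofNat_re]; rfl
  · show z.im / 2 = ((z : ℂ) / 2).im
    rw [Complex.div_ofNat_im]; rfl

theorem qParam_halfPt_sq (h : ℕ) (z : ℍ) :
    Periodic.qParam (h : ℝ) ((halfPt z : ℍ) : ℂ) ^ 2 = Periodic.qParam (h : ℝ) (z : ℂ) := by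
  unfold Periodic.qParam
  rw [← Complex.exp_nat_mul, coe_halfPt]
  congr 1
  push_cast
  ring

theorem norm_qParam_lt_one' {h : ℕ} (hh : 0 < h) (z : ℍ) :
    ‖Periodic.qParam (h : ℝ) (z : ℂ)‖ < 1 :=
  Periodic.norm_qParam_lt_one (by exact_mod_cast hh) z.im_pos

/-- absolute convergence of an expansion -/
theorem HasExpS.summable_norm {h : ℕ} (hh : 0 < h) {F : ℍ → ℂ} {B : PowerSeries ℂ}
    (hB : HasExpS h F B) (z : ℍ) :
    Summable fun n : ℕ => ‖PowerSeries.coeff n B * Periodic.qParam (h : ℝ) (z : ℂ) ^ n‖ := by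
  set t' := Periodic.qParam (h : ℝ) ((halfPt z : ℍ) : ℂ) with ht'
  have ht : Periodic.qParam (h : ℝ) (z : ℂ) = t' ^ 2 := (qParam_halfPt_sq h z).symm
  have hlt : ‖t'‖ < 1 := norm_qParam_lt_one' hh (halfPt z)
  have hs : Summable fun n : ℕ => PowerSeries.coeff n B * t' ^ n := (hB (halfPt z)).summable
  obtain ⟨M, hM⟩ := (hs.tendsto_atTop_zero.norm).bddAbove_range
  have hM' : ∀ n, ‖PowerSeries.coeff n B * t' ^ n‖ ≤ M := fun n => hM ⟨n, rfl⟩
  refine Summable.of_nonneg_of_le (fun n => norm_nonneg _) (fun n => ?_)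
    ((summable_geometric_of_lt_one (norm_nonneg t') hlt).mul_left M)
  rw [ht, ← pow_mul, mul_comm 2 n, pow_mul, pow_two, ← mul_assoc, norm_mul, norm_pow]
  exact mul_le_mul_of_nonneg_right (hM' n) (pow_nonneg (norm_nonneg _) n)

/-- uniqueness of the sum -/
theorem HasExpS.eq_tsum {h : ℕ} {F : ℍ → ℂ} {B : PowerSeries ℂ} (hB : HasExpS h F B) (z : ℍ) :
    F z = ∑' n : ℕ, PowerSeries.coeff n B * Periodic.qParam (h : ℝ) (z : ℂ) ^ n :=
  (hB z).tsum_eq.symm

theorem HasExpS.congr {h : ℕ} {F G : ℍ → ℂ} {B : PowerSeries ℂ} (hB : HasExpS h F B)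
    (hFG : F = G) : HasExpS h G B := hFG ▸ hB

theorem HasExpS.congr_series {h : ℕ} {F : ℍ → ℂ} {B B' : PowerSeries ℂ} (hB : HasExpS h F B)
    (hBB : B = B') : HasExpS h F B' := hBB ▸ hB

theorem HasExpS.add {h : ℕ} {F G : ℍ → ℂ} {B C : PowerSeries ℂ} (hB : HasExpS h F B)
    (hC : HasExpS h G C) : HasExpS h (F + G) (B + C) := by
  intro z
  have := (hB z).add (hC z)
  simp only [map_add, add_mul, Pi.add_apply]
  exact this

theorem HasExpS.neg {h : ℕ} {F : ℍ → ℂ} {B : PowerSeries ℂ} (hB : HasExpS h F B) :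
    HasExpS h (-F) (-B) := by
  intro z
  have := (hB z).neg
  simp only [map_neg, neg_mul, Pi.neg_apply]
  exact this

theorem HasExpS.sub {h : ℕ} {F G : ℍ → ℂ} {B C : PowerSeries ℂ} (hB : HasExpS h F B)
    (hC : HasExpS h G C) : HasExpS h (F - G) (B - C) := by
  rw [sub_eq_add_neg, sub_eq_add_neg]
  exact hB.add hC.neg

theorem HasExpS.const_mul {h : ℕ} {F : ℍ → ℂ} {B : PowerSeries ℂ} (c : ℂ)
    (hB : HasExpS h F B) : HasExpS h (fun z => c * F z) (PowerSeries.C c * B) := by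
  intro z
  have := (hB z).mul_left c
  simp only [PowerSeries.coeff_C_mul, mul_assoc]
  exact this

theorem HasExpS.smul {h : ℕ} {F : ℍ → ℂ} {B : PowerSeries ℂ} (c : ℂ)
    (hB : HasExpS h F B) : HasExpS h (c • F) (PowerSeries.C c * B) :=
  hB.const_mul c

theorem hasExpS_const (h : ℕ) (c : ℂ) : HasExpS h (fun _ => c) (PowerSeries.C c) := by
  intro z
  have : (fun n : ℕ => PowerSeries.coeff n (PowerSeries.C c) * Periodic.qParam (h : ℝ) (z : ℂ) ^ n)
      = fun n : ℕ => if n = 0 then c else 0 := by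
    funext n
    rw [PowerSeries.coeff_C]
    split_ifs with hn
    · subst hn; simp
    · simp
  rw [this]
  exact hasSum_ite_eq 0 c

theorem hasExpS_one (h : ℕ) : HasExpS h (1 : ℍ → ℂ) 1 := by
  have := hasExpS_const h 1
  rwa [map_one] at this

/-- **Cauchy product.** -/
theorem HasExpS.mul {h : ℕ} (hh : 0 < h) {F G : ℍ → ℂ} {B C : PowerSeries ℂ}
    (hB : HasExpS h F B) (hC : HasExpS h G C) : HasExpS h (F * G) (B * C) := by
  intro z
  set t := Periodic.qParam (h : ℝ) (z : ℂ) with ht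
  set f : ℕ → ℂ := fun n => PowerSeries.coeff n B * t ^ n with hf
  set g : ℕ → ℂ := fun n => PowerSeries.coeff n C * t ^ n with hg
  have hfn : Summable fun n => ‖f n‖ := hB.summable_norm hh z
  have hgn : Summable fun n => ‖g n‖ := hC.summable_norm hh z
  have hprod := tsum_mul_tsum_eq_tsum_sum_antidiagonal_of_summable_norm hfn hgn
  have hsumm : Summable fun n => ∑ kl ∈ Finset.HasAntidiagonal.antidiagonal n, f kl.1 * g kl.2 :=
    (summable_norm_sum_mul_antidiagonal_of_summable_norm hfn hgn).of_norm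
  have hterm : (fun n : ℕ => PowerSeries.coeff n (B * C) * t ^ n) =
      fun n => ∑ kl ∈ Finset.HasAntidiagonal.antidiagonal n, f kl.1 * g kl.2 := by
    funext n
    rw [PowerSeries.coeff_mul, Finset.sum_mul]
    refine Finset.sum_congr rfl fun kl hkl => ?_
    rw [Finset.HasAntidiagonal.mem_antidiagonal] at hkl
    simp only [hf, hg]
    rw [← hkl, pow_add]
    ring
  rw [hterm]
  have hval : (F * G) z = (∑' n, f n) * ∑' n, g n := by
    rw [Pi.mul_apply, hB.eq_tsum z, hC.eq_tsum z]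
  rw [hval, hprod]
  exact hsumm.hasSum

theorem HasExpS.pow {h : ℕ} (hh : 0 < h) {F : ℍ → ℂ} {B : PowerSeries ℂ}
    (hB : HasExpS h F B) (n : ℕ) : HasExpS h (F ^ n) (B ^ n) := by
  induction n with
  | zero => simpa using hasExpS_one h
  | succ n ih => rw [pow_succ, pow_succ]; exact ih.mul hh hB


/-! ### Expansions of `1`-periodic modular forms, and change of the period -/

theorem qParam_one_eq_pow (p : ℕ) (hp : p ≠ 0) (z : ℂ) :
    Periodic.qParam ((1 : ℕ) : ℝ) z = Periodic.qParam (p : ℝ) z ^ p := by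
  unfold Periodic.qParam
  rw [← Complex.exp_nat_mul]
  congr 1
  have : (p : ℂ) ≠ 0 := by exact_mod_cast hp
  push_cast
  field_simp

/-- an expansion in `e(z)` is an expansion in `e(z/p)` -/
theorem HasExpS.expand {F : ℍ → ℂ} {A : PowerSeries ℂ} (p : ℕ) (hp : p ≠ 0)
    (h1 : HasExpS 1 F A) : HasExpS p F (PowerSeries.expand p hp A) := by
  intro z
  have h := h1 z
  rw [qParam_one_eq_pow p hp] at h
  set t := Periodic.qParam (p : ℝ) (z : ℂ) with ht
  have hinj : Function.Injective fun n : ℕ => p * n :=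
    fun a b hab => Nat.eq_of_mul_eq_mul_left (Nat.pos_of_ne_zero hp) hab
  have hzero : ∀ m, m ∉ Set.range (fun n : ℕ => p * n) →
      PowerSeries.coeff m (PowerSeries.expand p hp A) * t ^ m = 0 := by
    intro m hm
    rw [PowerSeries.coeff_expand_of_not_dvd p hp A (fun hdvd => hm ?_), zero_mul]
    obtain ⟨c, rfl⟩ := hdvd
    exact ⟨c, rfl⟩
  rw [← hinj.hasSum_iff hzero]
  convert h using 1
  funext n
  simp only [Function.comp_apply]
  rw [PowerSeries.coeff_expand_mul, pow_mul]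

theorem hasExpS_one_levelOne {k : ℤ} (f : ModularForm 𝒮ℒ k) :
    HasExpS 1 (⇑f) (qExpansion 1 (⇑f)) := by
  intro z
  have := ModularForm.hasSum_qExpansion (f := f) one_pos one_mem_strictPeriods_SL z
  simpa using this

theorem hasExpS_one_Gamma0 {N : ℕ} [NeZero N] {k : ℤ} (f : ModularForm (Gamma0 N) k) :
    HasExpS 1 (⇑f) (qExpansion 1 (⇑f)) := by
  intro z
  have := ModularForm.hasSum_qExpansion (f := f) one_pos
    (CongruenceSubgroup.one_mem_strictPeriods_Gamma0 N) z
  simpa using this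

end Fermat.Agent.H59
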