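import Mathlib
import Fermat.Agent.H17.JBridge

/-!
# S16, prime `2`: the level-one contradiction

For a subring `R ⊆ ℂ` with `1/2 ∉ R` (think: the `2`-integral algebraic numbers), no level-one
modular form of weight `w < 12 m` has `q`-expansion `≡ Δ^m` modulo `2 R⟦q⟧`.

Main statement: `levelOne_qExpansion_ne_discriminant_pow_add`.
-/

set_option autoImplicit false

open UpperHalfPlane ModularForm EisensteinSeries
open scoped MatrixGroups

noncomputable section

namespace Fermat.Agent.H59

/-- Power series over `ℂ` all of whose coefficients lie in the subring `R`. -/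
def seriesIn (R : Subring ℂ) : Subring (PowerSeries ℂ) where
  carrier := {P | ∀ n, PowerSeries.coeff n P ∈ R}
  mul_mem' := by
    intro P Q hP hQ n
    rw [PowerSeries.coeff_mul]
    exact Subring.sum_mem _ fun ij _ => R.mul_mem (hP _) (hQ _)
  one_mem' := by
    intro n
    rw [PowerSeries.coeff_one]
    split_ifs
    · exact R.one_mem
    · exact R.zero_mem
  add_mem' := by
    intro P Q hP hQ n
    rw [map_add]
    exact R.add_mem (hP n) (hQ n)
  zero_mem' := by
    intro n
    rw [map_zero]
    exact R.zero_mem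
  neg_mem' := by
    intro P hP n
    rw [map_neg]
    exact R.neg_mem (hP n)

theorem mem_seriesIn {R : Subring ℂ} {P : PowerSeries ℂ} :
    P ∈ seriesIn R ↔ ∀ n, PowerSeries.coeff n P ∈ R := Iff.rfl

theorem map_int_mem_seriesIn (R : Subring ℂ) (P : PowerSeries ℤ) :
    PowerSeries.map (Int.castRingHom ℂ) P ∈ seriesIn R := by
  intro n
  rw [PowerSeries.coeff_map]
  exact intCast_mem R _

theorem C_mem_seriesIn {R : Subring ℂ} {c : ℂ} (hc : c ∈ R) :
    PowerSeries.C c ∈ seriesIn R := by
  intro n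
  rw [PowerSeries.coeff_C]
  split_ifs
  · exact hc
  · exact R.zero_mem

theorem X_mem_seriesIn (R : Subring ℂ) : (PowerSeries.X : PowerSeries ℂ) ∈ seriesIn R := by
  intro n
  rw [PowerSeries.coeff_X]
  split_ifs
  · exact R.one_mem
  · exact R.zero_mem

/-- A series in `R⟦q⟧` with vanishing constant term is `X` times a series in `R⟦q⟧`. -/
theorem exists_eq_X_mul_of_coeff_zero {R : Subring ℂ} {P : PowerSeries ℂ} (hP : P ∈ seriesIn R)
    (h0 : PowerSeries.coeff 0 P = 0) :
    ∃ Q ∈ seriesIn R, P = PowerSeries.X * Q := by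
  refine ⟨PowerSeries.mk fun n => PowerSeries.coeff (n + 1) P, fun n => ?_, ?_⟩
  · rw [PowerSeries.coeff_mk]
    exact hP _
  · ext n
    rcases n with _ | n
    · rw [h0, PowerSeries.coeff_zero_X_mul]
    · rw [PowerSeries.coeff_succ_X_mul, PowerSeries.coeff_mk]

/-- the unit part of the `q`-expansion of `Δ` -/
def deltaUnit : PowerSeries ℂ := PowerSeries.map (Int.castRingHom ℂ) ModularCurve.dedekindEtaUnit

/-- its inverse -/
def deltaUnitInv : PowerSeries ℂ :=
  PowerSeries.map (Int.castRingHom ℂ) ModularCurve.dedekindEtaUnitInv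

theorem deltaUnit_mul_inv : deltaUnit * deltaUnitInv = 1 := by
  rw [deltaUnit, deltaUnitInv, ← map_mul, ModularCurve.dedekindEtaUnit_mul_inv, map_one]

theorem qExpansion_discriminant_eq_X_mul :
    qExpansion 1 ModularForm.discriminant = PowerSeries.X * deltaUnit :=
  Fermat.Agent.H17.qExpansion_discriminant_eq

theorem constantCoeff_deltaUnit : PowerSeries.constantCoeff deltaUnit = 1 := by
  rw [deltaUnit, ← PowerSeries.coeff_zero_eq_constantCoeff_apply, PowerSeries.coeff_map,
    PowerSeries.coeff_zero_eq_constantCoeff_apply, ModularCurve.constantCoeff_dedekindEtaUnit]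
  simp

theorem coeff_discriminant_pow_self (m : ℕ) :
    PowerSeries.coeff m ((qExpansion 1 ModularForm.discriminant) ^ m) = 1 := by
  rw [qExpansion_discriminant_eq_X_mul, mul_pow]
  have := PowerSeries.coeff_X_pow_mul (deltaUnit ^ m) m 0
  rw [zero_add] at this
  rw [this, PowerSeries.coeff_zero_eq_constantCoeff_apply, map_pow, constantCoeff_deltaUnit,
    one_pow]

theorem coeff_zero_discriminant_pow_succ (m : ℕ) :
    PowerSeries.coeff 0 ((qExpansion 1 ModularForm.discriminant) ^ (m + 1)) = 0 := by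
  rw [qExpansion_discriminant_eq_X_mul, mul_pow, pow_succ' PowerSeries.X, mul_assoc,
    PowerSeries.coeff_zero_X_mul]


theorem coeff_two_mul (n : ℕ) (Y : PowerSeries ℂ) :
    PowerSeries.coeff n ((2 : PowerSeries ℂ) * Y) = 2 * PowerSeries.coeff n Y := by
  have : (2 : PowerSeries ℂ) = PowerSeries.C (2 : ℂ) := (map_ofNat PowerSeries.C 2).symm
  rw [this, PowerSeries.coeff_C_mul]

/-- **Division step.** A level-one form `f` with `a₀(f) = 0` and `q`-expansion `Δ^(m+1) + 2Y`,
`Y ∈ R⟦q⟧`, is `Δ g` with `g` of weight `w - 12` and `q`-expansion `Δ^m + 2Y'`, `Y' ∈ R⟦q⟧`. -/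
theorem exists_div_discriminant {R : Subring ℂ} {w : ℤ} (m : ℕ) (f : ModularForm 𝒮ℒ w)
    (Y : PowerSeries ℂ) (hY : Y ∈ seriesIn R)
    (h : qExpansion 1 f = (qExpansion 1 ModularForm.discriminant) ^ (m + 1) + 2 * Y)
    (h0 : (qExpansion 1 f).coeff 0 = 0) :
    ∃ (g : ModularForm 𝒮ℒ (w - 12)) (Y' : PowerSeries ℂ), Y' ∈ seriesIn R ∧
      qExpansion 1 g = (qExpansion 1 ModularForm.discriminant) ^ m + 2 * Y' := by
  have hfac := ModularForm.qExpansion_eq_qExpansion_discriminant_mul f h0
  set g : ModularForm 𝒮ℒ (w - 12) := CuspForm.discriminantEquiv (toCuspForm f h0) with hg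
  -- the constant term of `Y` vanishes
  have hY0 : PowerSeries.coeff 0 Y = 0 := by
    have h1 := congrArg (PowerSeries.coeff 0) h
    rw [h0, map_add, coeff_zero_discriminant_pow_succ, zero_add] at h1
    rw [coeff_two_mul] at h1
    have h3 : (2 : ℂ) ≠ 0 := two_ne_zero
    exact (mul_eq_zero.mp h1.symm).resolve_left h3
  obtain ⟨Y₁, hY₁, rfl⟩ := exists_eq_X_mul_of_coeff_zero hY hY0
  refine ⟨g, deltaUnitInv * Y₁,
    (seriesIn R).mul_mem (map_int_mem_seriesIn R _) hY₁, ?_⟩
  -- cancel `X * deltaUnit`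
  have hX : (PowerSeries.X : PowerSeries ℂ) ≠ 0 := PowerSeries.X_ne_zero
  have key : PowerSeries.X * (deltaUnit * qExpansion 1 g) =
      PowerSeries.X * (deltaUnit * ((qExpansion 1 ModularForm.discriminant) ^ m) + 2 * Y₁) := by
    have e1 : qExpansion 1 f = PowerSeries.X * (deltaUnit * qExpansion 1 g) := by
      rw [hfac, qExpansion_discriminant_eq_X_mul, mul_assoc]
    rw [← e1, h, pow_succ', qExpansion_discriminant_eq_X_mul]
    ring
  have key2 := mul_left_cancel₀ hX key
  have key3 : deltaUnitInv * (deltaUnit * qExpansion 1 g) =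
      deltaUnitInv * (deltaUnit * ((qExpansion 1 ModularForm.discriminant) ^ m) + 2 * Y₁) := by
    rw [key2]
  have hinv : deltaUnitInv * deltaUnit = 1 := by rw [mul_comm, deltaUnit_mul_inv]
  calc qExpansion 1 g = (deltaUnitInv * deltaUnit) * qExpansion 1 g := by rw [hinv, one_mul]
    _ = deltaUnitInv * (deltaUnit * qExpansion 1 g) := by ring
    _ = deltaUnitInv * (deltaUnit * ((qExpansion 1 ModularForm.discriminant) ^ m) + 2 * Y₁) := key3
    _ = (deltaUnitInv * deltaUnit) * (qExpansion 1 ModularForm.discriminant) ^ m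
          + 2 * (deltaUnitInv * Y₁) := by ring
    _ = (qExpansion 1 ModularForm.discriminant) ^ m + 2 * (deltaUnitInv * Y₁) := by
          rw [hinv, one_mul]


/-! ### Level-one forms with `q`-expansion `≡ 1 mod 2` -/

/-- `P = 1 + 2 P'` with `P'` an integral power series. -/
def IsOneModTwo (P : PowerSeries ℂ) : Prop :=
  ∃ P' : PowerSeries ℤ, PowerSeries.coeff 0 P' = 0 ∧
    P = 1 + 2 * PowerSeries.map (Int.castRingHom ℂ) P'

theorem isOneModTwo_one : IsOneModTwo 1 := ⟨0, by simp, by simp⟩

theorem IsOneModTwo.mul {P Q : PowerSeries ℂ} (hP : IsOneModTwo P) (hQ : IsOneModTwo Q) :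
    IsOneModTwo (P * Q) := by
  obtain ⟨P', hP0, rfl⟩ := hP
  obtain ⟨Q', hQ0, rfl⟩ := hQ
  refine ⟨P' + Q' + 2 * (P' * Q'), ?_, ?_⟩
  · have h2 : (2 : PowerSeries ℤ) = PowerSeries.C (2 : ℤ) := (map_ofNat PowerSeries.C 2).symm
    rw [map_add, map_add, hP0, hQ0, h2, PowerSeries.coeff_C_mul, PowerSeries.coeff_mul]
    simp [hP0]
  · simp only [map_add, map_mul, map_ofNat]
    ring

theorem IsOneModTwo.pow {P : PowerSeries ℂ} (hP : IsOneModTwo P) (n : ℕ) :
    IsOneModTwo (P ^ n) := by
  induction n with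
  | zero => simpa using isOneModTwo_one
  | succ n ih => rw [pow_succ]; exact ih.mul hP

/-- there is a level-one form of weight `k` whose `q`-expansion is `≡ 1 mod 2` -/
def HasUnitForm (k : ℤ) : Prop :=
  ∃ B : ModularForm 𝒮ℒ k, IsOneModTwo (qExpansion 1 B)

theorem HasUnitForm.congr_weight {k k' : ℤ} (h : k = k') (hk : HasUnitForm k) :
    HasUnitForm k' := h ▸ hk

theorem HasUnitForm.mul {k₁ k₂ : ℤ} (h₁ : HasUnitForm k₁) (h₂ : HasUnitForm k₂) :
    HasUnitForm (k₁ + k₂) := by
  obtain ⟨B₁, hB₁⟩ := h₁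
  obtain ⟨B₂, hB₂⟩ := h₂
  refine ⟨B₁.mul B₂, ?_⟩
  rw [ModularForm.qExpansion_mul one_pos one_mem_strictPeriods_SL]
  exact hB₁.mul hB₂

theorem hasUnitForm_zero : HasUnitForm 0 :=
  ⟨1, by rw [ModularForm.qExpansion_one]; exact isOneModTwo_one⟩

theorem HasUnitForm.pow {k : ℤ} (h : HasUnitForm k) (n : ℕ) : HasUnitForm (n * k) := by
  induction n with
  | zero => simpa using hasUnitForm_zero
  | succ n ih => exact (ih.mul h).congr_weight (by push_cast; ring)

theorem hasUnitForm_four : HasUnitForm 4 := by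
  refine ⟨E₄, PowerSeries.mk fun m =>
    if m = 0 then 0 else 120 * (ArithmeticFunction.sigma 3 m : ℤ), by simp, ?_⟩
  ext m
  rw [E_qExpansion_coeff _ ⟨2, rfl⟩, map_add, coeff_two_mul, PowerSeries.coeff_map,
    PowerSeries.coeff_mk, PowerSeries.coeff_one]
  have hb : bernoulli 4 = -1 / 30 := by decide +kernel
  split_ifs
  · simp
  · rw [hb]
    push_cast
    norm_num
    ring

theorem hasUnitForm_six : HasUnitForm 6 := by
  refine ⟨E₆, PowerSeries.mk fun m =>
    if m = 0 then 0 else -252 * (ArithmeticFunction.sigma 5 m : ℤ), by simp, ?_⟩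
  ext m
  rw [E_qExpansion_coeff _ ⟨3, rfl⟩, map_add, coeff_two_mul, PowerSeries.coeff_map,
    PowerSeries.coeff_mk, PowerSeries.coeff_one]
  have hb : bernoulli 6 = 1 / 42 := by decide +kernel
  split_ifs
  · simp
  · rw [hb]
    push_cast
    norm_num
    ring

theorem hasUnitForm_of_even {k : ℤ} (hk : 4 ≤ k) (hk2 : Even k) : HasUnitForm k := by
  obtain ⟨a, b, hab⟩ : ∃ a b : ℕ, (a : ℤ) * 4 + (b : ℤ) * 6 = k := by
    obtain ⟨m, hm⟩ := hk2
    rcases Int.even_or_odd' m with ⟨c, hc | hc⟩
    · refine ⟨c.toNat, 0, ?_⟩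
      have : 0 ≤ c := by omega
      rw [Int.toNat_of_nonneg this]
      omega
    · refine ⟨(c - 1).toNat, 1, ?_⟩
      have : 0 ≤ c - 1 := by omega
      rw [Int.toNat_of_nonneg this]
      omega
  exact ((hasUnitForm_four.pow a).mul (hasUnitForm_six.pow b)).congr_weight hab

/-- if a level-one form of weight `w` is nonzero then there is a unit form of weight `w` -/
theorem hasUnitForm_of_ne_zero {w : ℤ} (f : ModularForm 𝒮ℒ w) (hf : f ≠ 0) : HasUnitForm w := by
  have hw0 : 0 ≤ w := by
    by_contra hneg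
    exact hf (DFunLike.coe_injective
      (by simpa using ModularFormClass.levelOne_neg_weight_eq_zero (not_le.mp hneg) f))
  have hwe : Even w := by
    by_contra hodd
    exact hf (ModularForm.levelOne_odd_weight_eq_zero (Int.not_even_iff_odd.mp hodd) f)
  rcases eq_or_lt_of_le hw0 with h0 | hpos
  · exact hasUnitForm_zero.congr_weight h0
  · have h2 : w ≠ 2 := by
      rintro rfl
      exact hf (rank_zero_iff_forall_zero.mp levelOne_weight_two_rank_zero f)
    obtain ⟨r, hr⟩ := hwe
    exact hasUnitForm_of_even (by omega) ⟨r, hr⟩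


/-! ### The main contradiction -/

/-- **Level-one contradiction.** Let `R ⊆ ℂ` be a subring not containing `1/2`. A level-one
modular form of weight `w < 12 m` cannot have a `q`-expansion of the form `Δ^m + 2Y` with
`Y ∈ R⟦q⟧`. -/
theorem levelOne_qExpansion_ne_discriminant_pow_add (R : Subring ℂ) (hR : (2 : ℂ)⁻¹ ∉ R) :
    ∀ (m : ℕ) (w : ℤ), w < 12 * (m : ℤ) → ∀ (f : ModularForm 𝒮ℒ w) (Y : PowerSeries ℂ),
      Y ∈ seriesIn R →
      qExpansion 1 f ≠ (qExpansion 1 ModularForm.discriminant) ^ m + 2 * Y := by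
  intro m
  induction m with
  | zero =>
    intro w hw f Y hY h
    have hf : f = 0 := DFunLike.coe_injective
      (by simpa using ModularFormClass.levelOne_neg_weight_eq_zero (by simpa using hw) f)
    have hq : qExpansion 1 f = 0 := by
      rw [hf]
      exact UpperHalfPlane.qExpansion_zero 1
    rw [hq, pow_zero] at h
    have h1 := congrArg (PowerSeries.coeff 0) h
    rw [map_zero, map_add, coeff_two_mul, PowerSeries.coeff_one, if_pos rfl] at h1
    apply hR
    have h2 : (2 : ℂ)⁻¹ = -PowerSeries.coeff 0 Y := by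
      have h3 : (2 : ℂ) * PowerSeries.coeff 0 Y = -1 := by linear_combination -h1
      linear_combination ((1 / 2) : ℂ) * h3
    rw [h2]
    exact R.neg_mem (hY 0)
  | succ m ih =>
    intro w hw f Y hY h
    -- constant term of `f`
    have hc : (qExpansion 1 f).coeff 0 = 2 * PowerSeries.coeff 0 Y := by
      have h1 := congrArg (PowerSeries.coeff 0) h
      rwa [map_add, coeff_zero_discriminant_pow_succ, zero_add, coeff_two_mul] at h1
    have hw' : w - 12 < 12 * (m : ℤ) := by push_cast at hw; omega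
    by_cases h0 : (qExpansion 1 f).coeff 0 = 0
    · obtain ⟨g, Y', hY', hg⟩ := exists_div_discriminant m f Y hY h h0
      exact ih (w - 12) hw' g Y' hY' hg
    · have hf : f ≠ 0 := by
        rintro rfl
        apply h0
        have : qExpansion 1 ((0 : ModularForm 𝒮ℒ w) : ℍ → ℂ) = 0 := by
          rw [FunLike.coe_zero]
          exact UpperHalfPlane.qExpansion_zero 1
        rw [this, map_zero]
      obtain ⟨B, P', hP'0, hB⟩ := hasUnitForm_of_ne_zero f hf
      set c : ℂ := PowerSeries.coeff 0 Y with hcdef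
      have hcR : c ∈ R := hY 0
      -- subtract `2c B`
      set f' : ModularForm 𝒮ℒ w := f - (2 * c) • B with hf'
      have hq' : qExpansion 1 f' = qExpansion 1 f - (2 * c) • qExpansion 1 B := by
        rw [hf', FunLike.coe_sub,
          ModularForm.qExpansion_sub one_pos one_mem_strictPeriods_SL, FunLike.coe_smul,
          ModularForm.qExpansion_smul one_pos one_mem_strictPeriods_SL]
      set Y₁ : PowerSeries ℂ :=
        Y - PowerSeries.C c - 2 * (PowerSeries.C c * PowerSeries.map (Int.castRingHom ℂ) P')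
        with hY₁
      have hY₁R : Y₁ ∈ seriesIn R := by
        refine (seriesIn R).sub_mem ((seriesIn R).sub_mem hY (C_mem_seriesIn hcR)) ?_
        refine (seriesIn R).mul_mem ?_
          ((seriesIn R).mul_mem (C_mem_seriesIn hcR) (map_int_mem_seriesIn R _))
        have : (2 : PowerSeries ℂ) = PowerSeries.map (Int.castRingHom ℂ) 2 :=
          (map_ofNat (PowerSeries.map (Int.castRingHom ℂ)) 2).symm
        rw [this]
        exact map_int_mem_seriesIn R _
      have hq'' : qExpansion 1 f' =
          (qExpansion 1 ModularForm.discriminant) ^ (m + 1) + 2 * Y₁ := by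
        rw [hq', h, hB, hY₁, PowerSeries.smul_eq_C_mul, map_mul]
        have : (PowerSeries.C (2 : ℂ) : PowerSeries ℂ) = 2 := map_ofNat PowerSeries.C 2
        rw [this]
        ring
      have h0' : (qExpansion 1 f').coeff 0 = 0 := by
        have hP0 : PowerSeries.coeff 0 (PowerSeries.map (Int.castRingHom ℂ) P') = 0 := by
          rw [PowerSeries.coeff_map, hP'0, map_zero]
        rw [hq'', map_add, coeff_zero_discriminant_pow_succ, zero_add, coeff_two_mul, hY₁,
          map_sub, map_sub, coeff_two_mul, PowerSeries.coeff_C_mul, hP0, PowerSeries.coeff_C,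
          if_pos rfl]
        ring
      obtain ⟨g, Y', hY', hg⟩ := exists_div_discriminant m f' Y₁ hY₁R hq'' h0'
      exact ih (w - 12) hw' g Y' hY' hg

end Fermat.Agent.H59
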