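import Mathlib
import Fermat.Agent.H59.S16LevelOne
import Fermat.Agent.H98.INT4_LevelOne

/-!
# S16, prime `2`: the key identity

`Q(X) := X⁴ - 6 E₄ X² + 8 E₆ X - 3 E₄²` (the `3`-division polynomial of the Tate curve, i.e. the
norm of `X - θ²` from level `3` to level `1`).  For `X = 1 + 4x`:

`Q(X) = 256 (x⁴ + x³ + Δ + 2 (...))`.

* `key_identity_ring`: the identity in an arbitrary commutative ring;
* `exists_key_identity`: the subring version used for conjugates;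
* `e4S`, `kappaS`: the integral power series with `E₄ = 1 + 16 e₄`, `E₆ = 1 + 24 e₄ + 32 κ`;
* `qExpansion_E₄_eq_e4S`, `qExpansion_E₆_eq_kappaS`, `discriminant_relation`.
-/

set_option autoImplicit false

open UpperHalfPlane ModularForm EisensteinSeries
open scoped MatrixGroups

noncomputable section

namespace Fermat.Agent.H59

/-- the quartic `Q(X) = X⁴ - 6 E₄ X² + 8 E₆ X - 3 E₄²` -/
def quarticQ {A : Type*} [CommRing A] (E4 E6 X : A) : A :=
  X ^ 4 - 6 * E4 * X ^ 2 + 8 * E6 * X - 3 * E4 ^ 2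

/-- **Key identity**, in any commutative ring. -/
theorem key_identity_ring {A : Type*} [CommRing A] (x e4 κ D : A)
    (h : 27 * D = -κ + 3 * e4 ^ 2 + 64 * e4 ^ 3 - 24 * e4 * κ - 16 * κ ^ 2) :
    quarticQ (1 + 16 * e4) (1 + 24 * e4 + 32 * κ) (1 + 4 * x) =
      256 * (x ^ 4 + x ^ 3 + D +
        2 * (2 * κ * x - 3 * e4 * x ^ 2 + 32 * e4 ^ 3 - 12 * e4 * κ - 8 * κ ^ 2 - 14 * D)) := by
  unfold quarticQ
  linear_combination 256 * h

/-- **Key identity, subring version.** `S ⊆ A` a subring ("integral elements"),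
`x = ε + 2x'` with `ε, x' ∈ S` and `ε⁴ + ε³ ∈ 2S`. Then `Q(1 + 4x) = 256 (D + 2Y)` with
`Y ∈ S`. -/
theorem exists_key_identity {A : Type*} [CommRing A] (S : Subring A) (e4 κ D ε x' t0 : A)
    (he4 : e4 ∈ S) (hκ : κ ∈ S) (hD : D ∈ S) (hε : ε ∈ S) (hx' : x' ∈ S) (ht0 : t0 ∈ S)
    (hεt0 : ε ^ 4 + ε ^ 3 = 2 * t0)
    (h : 27 * D = -κ + 3 * e4 ^ 2 + 64 * e4 ^ 3 - 24 * e4 * κ - 16 * κ ^ 2) :
    ∃ Y ∈ S, quarticQ (1 + 16 * e4) (1 + 24 * e4 + 32 * κ) (1 + 4 * (ε + 2 * x')) =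
      256 * (D + 2 * Y) := by
  have h2 : (2 : A) ∈ S := by
    have : (2 : A) = 1 + 1 := by norm_num
    rw [this]
    exact S.add_mem S.one_mem S.one_mem
  have hn : ∀ n : ℕ, (n : A) ∈ S := fun n => natCast_mem S n
  set x : A := ε + 2 * x' with hx
  have hxS : x ∈ S := S.add_mem hε (S.mul_mem h2 hx')
  refine ⟨t0 + (4 * ε ^ 3 * x' + 12 * ε ^ 2 * x' ^ 2 + 16 * ε * x' ^ 3 + 8 * x' ^ 4
      + 3 * ε ^ 2 * x' + 6 * ε * x' ^ 2 + 4 * x' ^ 3)
      + (2 * κ * x - 3 * e4 * x ^ 2 + 32 * e4 ^ 3 - 12 * e4 * κ - 8 * κ ^ 2 - 14 * D), ?_, ?_⟩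
  · have h3 : (3 : A) ∈ S := by exact_mod_cast hn 3
    have h4 : (4 : A) ∈ S := by exact_mod_cast hn 4
    have h6 : (6 : A) ∈ S := by exact_mod_cast hn 6
    have h8 : (8 : A) ∈ S := by exact_mod_cast hn 8
    have h12 : (12 : A) ∈ S := by exact_mod_cast hn 12
    have h14 : (14 : A) ∈ S := by exact_mod_cast hn 14
    have h16 : (16 : A) ∈ S := by exact_mod_cast hn 16
    have h32 : (32 : A) ∈ S := by exact_mod_cast hn 32
    have hm := fun a b (ha : a ∈ S) (hb : b ∈ S) => S.mul_mem ha hb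
    have hp := fun a (n : ℕ) (ha : a ∈ S) => S.pow_mem ha n
    refine S.add_mem (S.add_mem ht0 ?_) ?_
    · refine S.add_mem (S.add_mem (S.add_mem (S.add_mem (S.add_mem (S.add_mem ?_ ?_) ?_) ?_) ?_) ?_) ?_
      · exact hm _ _ (hm _ _ h4 (hp _ 3 hε)) hx'
      · exact hm _ _ (hm _ _ h12 (hp _ 2 hε)) (hp _ 2 hx')
      · exact hm _ _ (hm _ _ h16 hε) (hp _ 3 hx')
      · exact hm _ _ h8 (hp _ 4 hx')
      · exact hm _ _ (hm _ _ h3 (hp _ 2 hε)) hx'
      · exact hm _ _ (hm _ _ h6 hε) (hp _ 2 hx')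
      · exact hm _ _ h4 (hp _ 3 hx')
    · refine S.sub_mem (S.sub_mem (S.sub_mem (S.add_mem (S.sub_mem ?_ ?_) ?_) ?_) ?_) ?_
      · exact hm _ _ (hm _ _ h2 hκ) hxS
      · exact hm _ _ (hm _ _ h3 he4) (hp _ 2 hxS)
      · exact hm _ _ h32 (hp _ 3 he4)
      · exact hm _ _ (hm _ _ h12 he4) hκ
      · exact hm _ _ h8 (hp _ 2 hκ)
      · exact hm _ _ h14 hD
  · rw [key_identity_ring x e4 κ D h]
    have hx4 : x ^ 4 + x ^ 3 = 2 * (t0 + (4 * ε ^ 3 * x' + 12 * ε ^ 2 * x' ^ 2 + 16 * ε * x' ^ 3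
        + 8 * x' ^ 4 + 3 * ε ^ 2 * x' + 6 * ε * x' ^ 2 + 4 * x' ^ 3)) := by
      rw [hx]
      linear_combination hεt0
    linear_combination 256 * hx4


/-! ### The level-one data -/

theorem four_dvd_aux (d : ℤ) : (4 : ℤ) ∣ 63 * d ^ 5 + 45 * d ^ 3 := by
  have h : ∀ r : ZMod 4, 63 * r ^ 5 + 45 * r ^ 3 = 0 := by decide
  have h2 : ((63 * d ^ 5 + 45 * d ^ 3 : ℤ) : ZMod 4) = 0 := by
    push_cast
    exact h (d : ZMod 4)
  exact (ZMod.intCast_zmod_eq_zero_iff_dvd _ 4).mp h2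

theorem four_dvd_sigma (n : ℕ) :
    (4 : ℤ) ∣ 63 * (ArithmeticFunction.sigma 5 n : ℤ) + 45 * (ArithmeticFunction.sigma 3 n : ℤ) := by
  rw [ArithmeticFunction.sigma_apply, ArithmeticFunction.sigma_apply]
  push_cast
  rw [Finset.mul_sum, Finset.mul_sum, ← Finset.sum_add_distrib]
  exact Finset.dvd_sum fun d _ => four_dvd_aux d

/-- `e₄ = 15 ∑ σ₃(n) qⁿ`, so that `E₄ = 1 + 16 e₄`. -/
def e4S : PowerSeries ℤ :=
  PowerSeries.mk fun n => if n = 0 then 0 else 15 * (ArithmeticFunction.sigma 3 n : ℤ)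

/-- `κ = -∑ (63 σ₅(n) + 45 σ₃(n))/4 qⁿ`, so that `E₆ = 1 + 24 e₄ + 32 κ`. -/
def kappaS : PowerSeries ℤ :=
  PowerSeries.mk fun n => if n = 0 then 0 else
    -((63 * (ArithmeticFunction.sigma 5 n : ℤ) + 45 * (ArithmeticFunction.sigma 3 n : ℤ)) / 4)

theorem qExpansion_E₄_eq_e4S :
    qExpansion 1 E₄ = 1 + 16 * PowerSeries.map (Int.castRingHom ℂ) e4S := by
  ext m
  have h16 : (16 : PowerSeries ℂ) = PowerSeries.C (16 : ℂ) := (map_ofNat PowerSeries.C 16).symm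
  rw [E_qExpansion_coeff _ ⟨2, rfl⟩, map_add, h16, PowerSeries.coeff_C_mul, PowerSeries.coeff_map,
    e4S, PowerSeries.coeff_mk, PowerSeries.coeff_one]
  have hb : bernoulli 4 = -1 / 30 := by decide +kernel
  split_ifs
  · simp
  · rw [hb]
    push_cast
    norm_num
    ring

theorem qExpansion_E₆_eq_kappaS :
    qExpansion 1 E₆ = 1 + 24 * PowerSeries.map (Int.castRingHom ℂ) e4S
      + 32 * PowerSeries.map (Int.castRingHom ℂ) kappaS := by
  ext m
  have h24 : (24 : PowerSeries ℂ) = PowerSeries.C (24 : ℂ) := (map_ofNat PowerSeries.C 24).symm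
  have h32 : (32 : PowerSeries ℂ) = PowerSeries.C (32 : ℂ) := (map_ofNat PowerSeries.C 32).symm
  rw [E_qExpansion_coeff _ ⟨3, rfl⟩, map_add, map_add, h24, h32, PowerSeries.coeff_C_mul,
    PowerSeries.coeff_C_mul, PowerSeries.coeff_map, PowerSeries.coeff_map,
    e4S, kappaS, PowerSeries.coeff_mk, PowerSeries.coeff_mk, PowerSeries.coeff_one]
  have hb : bernoulli 6 = 1 / 42 := by decide +kernel
  split_ifs
  · simp
  · rw [hb]
    obtain ⟨c, hc⟩ := four_dvd_sigma m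
    have hdiv : (63 * (ArithmeticFunction.sigma 5 m : ℤ) + 45 * (ArithmeticFunction.sigma 3 m : ℤ)) / 4
        = c := by
      rw [hc]
      exact Int.mul_ediv_cancel_left c (by norm_num)
    rw [hdiv]
    have hc' : (63 : ℂ) * (ArithmeticFunction.sigma 5 m : ℂ) + 45 * (ArithmeticFunction.sigma 3 m : ℂ)
        = 4 * (c : ℂ) := by
      exact_mod_cast congrArg (Int.cast : ℤ → ℂ) hc
    push_cast
    norm_num
    linear_combination (-8 : ℂ) * hc'

/-- the relation `27 Δ = -κ + 3 e₄² + 64 e₄³ - 24 e₄ κ - 16 κ²` between the `q`-expansions -/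
theorem discriminant_relation :
    27 * qExpansion 1 ModularForm.discriminant =
      -PowerSeries.map (Int.castRingHom ℂ) kappaS
        + 3 * (PowerSeries.map (Int.castRingHom ℂ) e4S) ^ 2
        + 64 * (PowerSeries.map (Int.castRingHom ℂ) e4S) ^ 3
        - 24 * PowerSeries.map (Int.castRingHom ℂ) e4S * PowerSeries.map (Int.castRingHom ℂ) kappaS
        - 16 * (PowerSeries.map (Int.castRingHom ℂ) kappaS) ^ 2 := by
  rw [Fermat.Agent.H98.qExpansion_discriminant_eq, qExpansion_E₄_eq_e4S, qExpansion_E₆_eq_kappaS]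
  set a := PowerSeries.map (Int.castRingHom ℂ) e4S
  set k := PowerSeries.map (Int.castRingHom ℂ) kappaS
  rw [PowerSeries.smul_eq_C_mul]
  have h1 : (PowerSeries.C (1 / 1728 : ℂ) : PowerSeries ℂ) * 1728 = 1 := by
    have : (1728 : PowerSeries ℂ) = PowerSeries.C (1728 : ℂ) :=
      (map_ofNat PowerSeries.C 1728).symm
    rw [this, ← map_mul]
    norm_num
  have h2 : (1 + 16 * a) ^ 3 - (1 + 24 * a + 32 * k) ^ 2 =
      1728 * ((1 / 27 : ℂ) • (-k + 3 * a ^ 2 + 64 * a ^ 3 - 24 * a * k - 16 * k ^ 2)) := by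
    rw [PowerSeries.smul_eq_C_mul]
    have h27 : (PowerSeries.C (1 / 27 : ℂ) : PowerSeries ℂ) * 27 = 1 := by
      have : (27 : PowerSeries ℂ) = PowerSeries.C (27 : ℂ) :=
        (map_ofNat PowerSeries.C 27).symm
      rw [this, ← map_mul]
      norm_num
    linear_combination (-64 * (-k + 3 * a ^ 2 + 64 * a ^ 3 - 24 * a * k - 16 * k ^ 2)) * h27
  rw [h2, PowerSeries.smul_eq_C_mul]
  have h27 : (PowerSeries.C (1 / 27 : ℂ) : PowerSeries ℂ) * 27 = 1 := by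
    have : (27 : PowerSeries ℂ) = PowerSeries.C (27 : ℂ) :=
      (map_ofNat PowerSeries.C 27).symm
    rw [this, ← map_mul]
    norm_num
  linear_combination (27 * PowerSeries.C (1 / 27 : ℂ)
      * (-k + 3 * a ^ 2 + 64 * a ^ 3 - 24 * a * k - 16 * k ^ 2)) * h1
    + (-k + 3 * a ^ 2 + 64 * a ^ 3 - 24 * a * k - 16 * k ^ 2) * h27

end Fermat.Agent.H59
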