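import Mathlib
import Fermat.Agent.H59.S16LevelOne

/-!
# S16: the ring of `2`-integral algebraic numbers

`twoInt : Subring ℂ` is `{x | ∃ m odd, m x is an algebraic integer}`. It contains the roots of
unity and the inverses of odd integers, and does not contain `1/2`.
-/

set_option autoImplicit false

noncomputable section

namespace Fermat.Agent.H59

/-- the `2`-integral algebraic numbers -/
def twoInt : Subring ℂ where
  carrier := {x | ∃ m : ℕ, Odd m ∧ IsIntegral ℤ ((m : ℂ) * x)}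
  mul_mem' := by
    rintro x y ⟨m, hm, hx⟩ ⟨n, hn, hy⟩
    refine ⟨m * n, hm.mul hn, ?_⟩
    have : ((m * n : ℕ) : ℂ) * (x * y) = ((m : ℂ) * x) * ((n : ℂ) * y) := by push_cast; ring
    rw [this]
    exact hx.mul hy
  one_mem' := ⟨1, odd_one, by simpa using isIntegral_one⟩
  add_mem' := by
    rintro x y ⟨m, hm, hx⟩ ⟨n, hn, hy⟩
    refine ⟨m * n, hm.mul hn, ?_⟩
    have : ((m * n : ℕ) : ℂ) * (x + y) = (n : ℂ) * ((m : ℂ) * x) + (m : ℂ) * ((n : ℂ) * y) := by
      push_cast; ring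
    rw [this]
    have hn' : IsIntegral ℤ ((n : ℂ)) := by
      have := isIntegral_algebraMap (R := ℤ) (A := ℂ) (x := (n : ℤ))
      simpa using this
    have hm' : IsIntegral ℤ ((m : ℂ)) := by
      have := isIntegral_algebraMap (R := ℤ) (A := ℂ) (x := (m : ℤ))
      simpa using this
    exact (hn'.mul hx).add (hm'.mul hy)
  zero_mem' := ⟨1, odd_one, by simpa using isIntegral_zero⟩
  neg_mem' := by
    rintro x ⟨m, hm, hx⟩
    refine ⟨m, hm, ?_⟩
    rw [mul_neg]
    exact hx.neg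

theorem mem_twoInt {x : ℂ} : x ∈ twoInt ↔ ∃ m : ℕ, Odd m ∧ IsIntegral ℤ ((m : ℂ) * x) := Iff.rfl

theorem mem_twoInt_of_isIntegral {x : ℂ} (hx : IsIntegral ℤ x) : x ∈ twoInt :=
  ⟨1, odd_one, by simpa using hx⟩

theorem inv_natCast_mem_twoInt {m : ℕ} (hm : Odd m) : ((m : ℂ))⁻¹ ∈ twoInt := by
  refine ⟨m, hm, ?_⟩
  have h0 : (m : ℂ) ≠ 0 := by
    have : m ≠ 0 := fun h => by simp [h] at hm
    exact_mod_cast this
  rw [mul_inv_cancel₀ h0]
  exact isIntegral_one

theorem inv_intCast_mem_twoInt {u : ℤ} (hu : Odd u) : ((u : ℂ))⁻¹ ∈ twoInt := by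
  have hnat : Odd u.natAbs := Int.natAbs_odd.mpr hu
  have h := inv_natCast_mem_twoInt hnat
  rcases Int.natAbs_eq u with h1 | h1
  · have : (u : ℂ) = (u.natAbs : ℂ) := by
      have := congrArg (Int.cast : ℤ → ℂ) h1
      rwa [Int.cast_natCast] at this
    rw [this]; exact h
  · have : (u : ℂ) = -(u.natAbs : ℂ) := by
      have := congrArg (Int.cast : ℤ → ℂ) h1
      rwa [Int.cast_neg, Int.cast_natCast] at this
    rw [this, inv_neg]
    exact twoInt.neg_mem h

theorem inv_two_not_mem_twoInt : (2 : ℂ)⁻¹ ∉ twoInt := by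
  rintro ⟨m, hm, hint⟩
  -- `m / 2` is a rational algebraic integer, hence an integer
  have hq : IsIntegral ℤ ((m : ℚ) / 2) := by
    have : ((m : ℂ) * (2 : ℂ)⁻¹) = algebraMap ℚ ℂ ((m : ℚ) / 2) := by
      simp [div_eq_mul_inv]
    rw [this] at hint
    exact (isIntegral_algebraMap_iff (algebraMap ℚ ℂ).injective).mp hint
  obtain ⟨n, hn⟩ := IsIntegrallyClosed.isIntegral_iff.mp hq
  have h2 : (m : ℚ) = 2 * (n : ℚ) := by
    have : (algebraMap ℤ ℚ n) = (n : ℚ) := rfl
    rw [this] at hn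
    linarith
  have h3 : (m : ℤ) = 2 * n := by exact_mod_cast h2
  have h4 : Odd (m : ℤ) := by exact_mod_cast hm
  rw [h3] at h4
  exact (Int.not_odd_iff_even.mpr (even_two_mul n)) h4


theorem exp_mem_twoInt (p : ℕ) (hp : 0 < p) (k : ℤ) :
    Complex.exp (2 * Real.pi * Complex.I * k / p) ∈ twoInt := by
  apply mem_twoInt_of_isIntegral
  apply IsIntegral.of_pow hp
  have : Complex.exp (2 * Real.pi * Complex.I * k / p) ^ p = 1 := by
    rw [← Complex.exp_nat_mul]
    have hp0 : (p : ℂ) ≠ 0 := by exact_mod_cast hp.ne'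
    have : (p : ℂ) * (2 * Real.pi * Complex.I * k / p) = k * (2 * Real.pi * Complex.I) := by
      field_simp
    rw [this]
    exact Complex.exp_int_mul_two_pi_mul_I k
  rw [this]
  exact isIntegral_one

end Fermat.Agent.H59
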