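import Mathlib
import Fermat.Agent.H1.S16L2.Interfaces
import Fermat.Agent.H6.S16UB.Interfaces
import Fermat.Agent.H59.S16TwoInt

/-!
# S16, prime 2, route (β): interface for the weight-8 form `Ω`

`OmegaStatement`: for `p ≡ 3 mod 4` and a weight-2 form `H` on `Γ₀(p)` with integral
`q`-expansion `≡ odd constant mod 8`, there is a weight-8 form `Ω` on `Γ₀(p)`
(`Ω = Q(E₄, E₆, H / a₀) / 256`, `Q(X) = X⁴ - 6 E₄ X² + 8 E₆ X - 3 E₄²`) such that EVERY
`SL₂(ℤ)`-translate `Ω ∣ γ` has an expansion in `e(z/p)` of the form `Δ(tᵖ) + 2 Y` with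
`Y` a power series with `2`-integral algebraic coefficients.

Together with the norm machine (or `levelOne_qExpansion_ne_discriminant_pow_add`) this gives
`Fermat.Agent.H1.S16L2.NoUnitModEightStatement`: the norm of `Ω` is a level-one form of weight
`8 (p + 1)` whose `q`-expansion is `≡ Δ^(p+1) mod 2`.
-/

set_option autoImplicit false

open UpperHalfPlane CongruenceSubgroup
open scoped MatrixGroups ModularForm Real

namespace Fermat.Agent.H59

/-- (c) of route (β). -/
def OmegaStatement : Prop :=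
  ∀ (p : ℕ) (hp : p.Prime), 5 ≤ p → p % 4 = 3 →
    ∀ (H : ModularForm (Gamma0 p) 2) (a : ℕ → ℤ),
      (∀ n, PowerSeries.coeff n (qExpansion 1 (⇑H)) = (a n : ℂ)) →
      Odd (a 0) → (∀ n, 1 ≤ n → (8 : ℤ) ∣ a n) →
      ∃ Ω : ModularForm (Gamma0 p) 8, ∀ γ : SL(2, ℤ), ∃ Y ∈ seriesIn twoInt,
        Fermat.Agent.H6.S16UB.HasExp p (⇑Ω ∣[(8 : ℤ)] γ)
          (fun n => PowerSeries.coeff n
            (PowerSeries.expand p hp.ne_zero (qExpansion 1 ModularForm.discriminant) + 2 * Y))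

end Fermat.Agent.H59
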