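import Mathlib
import Fermat.Agent.H59.S16OmegaInterface
import Fermat.Agent.H59.S16KeyIdentity
import Fermat.Agent.H59.S16Exp
import Fermat.Agent.H22.Tools

/-!
# S16, prime 2, route (β): the weight-8 form `Ω` and the expansions of its translates

Main result: `omegaStatement (hC : ConjStatement) : OmegaStatement`.
-/

set_option autoImplicit false

open UpperHalfPlane CongruenceSubgroup ModularForm EisensteinSeries Function
open scoped MatrixGroups ModularForm Real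

noncomputable section

namespace Fermat.Agent.H59

/-! ### Coset representatives of `Γ₀(p)` in `SL₂(ℤ)` -/

theorem coe_S_mul_T_zpow (j : ℤ) :
    ((ModularGroup.S * ModularGroup.T ^ j : SL(2, ℤ)) : Matrix (Fin 2) (Fin 2) ℤ) =
      !![0, -1; 1, j] := by
  rw [Matrix.SpecialLinearGroup.coe_mul, ModularGroup.coe_T_zpow, ModularGroup.coe_S]
  ext a b
  fin_cases a <;> fin_cases b <;> simp [Matrix.mul_apply, Fin.sum_univ_two]

/-- every `γ ∈ SL₂(ℤ)` lies in `Γ₀(p)` or in `Γ₀(p) S T^j` for some `j` -/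
theorem exists_coset_rep {p : ℕ} (hp : p.Prime) (γ : SL(2, ℤ)) :
    γ ∈ Gamma0 p ∨ ∃ g ∈ Gamma0 p, ∃ j : ℤ, γ = g * (ModularGroup.S * ModularGroup.T ^ j) := by
  have : Fact p.Prime := ⟨hp⟩
  by_cases hc : ((γ 1 0 : ℤ) : ZMod p) = 0
  · exact Or.inl (Gamma0_mem.mpr hc)
  · right
    set a := γ 0 0 with ha
    set b := γ 0 1 with hb
    set c := γ 1 0 with hc'
    set d := γ 1 1 with hd
    have hdet : a * d - b * c = 1 := by
      have := γ.det_coe
      rw [Matrix.det_fin_two] at this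
      exact this
    -- `j ≡ d / c mod p`
    set jbar : ZMod p := (d : ZMod p) * ((c : ZMod p))⁻¹ with hjbar
    set j : ℤ := (jbar.val : ℤ) with hj
    have hjcast : ((j : ℤ) : ZMod p) = jbar := by
      rw [hj]
      simp
    have hg_det : (!![a * j - b, a; c * j - d, c] : Matrix (Fin 2) (Fin 2) ℤ).det = 1 := by
      rw [Matrix.det_fin_two_of]
      linear_combination hdet
    set g : SL(2, ℤ) := ⟨!![a * j - b, a; c * j - d, c], hg_det⟩ with hg
    have hgcoe : (g : Matrix (Fin 2) (Fin 2) ℤ) = !![a * j - b, a; c * j - d, c] := rfl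
    refine ⟨g, ?_, j, ?_⟩
    · rw [Gamma0_mem, hgcoe]
      simp only [Matrix.of_apply, Matrix.cons_val', Matrix.cons_val_zero, Matrix.cons_val_one,
        Matrix.cons_val_fin_one]
      push_cast
      rw [hjcast, hjbar]
      field_simp
      ring
    · apply Subtype.ext
      rw [Matrix.SpecialLinearGroup.coe_mul, coe_S_mul_T_zpow, hgcoe]
      ext r s
      fin_cases r <;> fin_cases s <;>
        simp [Matrix.mul_apply, Fin.sum_univ_two, ha, hb, hc', hd]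

/-! ### The quartic as a function, its slash and its expansion -/

/-- `(1/256) (X⁴ - 6 A X² + 8 B X - 3 A²)` as a function on `ℍ` -/
def quartFun (A B X : ℍ → ℂ) : ℍ → ℂ :=
  fun z => (1 / 256 : ℂ) * quarticQ (A z) (B z) (X z)

theorem quartFun_slash (A B X : ℍ → ℂ) (γ : SL(2, ℤ)) :
    (quartFun A B X) ∣[(8 : ℤ)] γ =
      quartFun (A ∣[(4 : ℤ)] γ) (B ∣[(6 : ℤ)] γ) (X ∣[(2 : ℤ)] γ) := by
  ext z
  simp only [quartFun, ModularForm.SL_slash_apply, quarticQ]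
  set w : ℂ := (denom γ z)⁻¹ with hw
  have h2 : denom γ z ^ (-(2 : ℤ)) = w ^ 2 := by
    rw [hw, zpow_neg, ← inv_zpow]; norm_cast
  have h4 : denom γ z ^ (-(4 : ℤ)) = w ^ 4 := by
    rw [hw, zpow_neg, ← inv_zpow]; norm_cast
  have h6 : denom γ z ^ (-(6 : ℤ)) = w ^ 6 := by
    rw [hw, zpow_neg, ← inv_zpow]; norm_cast
  have h8 : denom γ z ^ (-(8 : ℤ)) = w ^ 8 := by
    rw [hw, zpow_neg, ← inv_zpow]; norm_cast
  rw [h2, h4, h6, h8]
  ring

theorem HasExpS.quart {h : ℕ} (hh : 0 < h) {A B X : ℍ → ℂ} {a b x : PowerSeries ℂ}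
    (hA : HasExpS h A a) (hB : HasExpS h B b) (hX : HasExpS h X x) :
    HasExpS h (quartFun A B X) (PowerSeries.C (1 / 256 : ℂ) * quarticQ a b x) := by
  have h1 := hX.pow hh 4
  have h2 := (hA.mul hh (hX.pow hh 2)).const_mul 6
  have h3 := (hB.mul hh hX).const_mul 8
  have h4 := (hA.pow hh 2).const_mul 3
  have h5 := (((h1.sub h2).add h3).sub h4).const_mul (1 / 256)
  have c6 : (PowerSeries.C (6 : ℂ) : PowerSeries ℂ) = 6 := map_ofNat PowerSeries.C 6
  have c8 : (PowerSeries.C (8 : ℂ) : PowerSeries ℂ) = 8 := map_ofNat PowerSeries.C 8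
  have c3 : (PowerSeries.C (3 : ℂ) : PowerSeries ℂ) = 3 := map_ofNat PowerSeries.C 3
  refine (h5.congr ?_).congr_series ?_
  · funext z
    simp only [quartFun, quarticQ, Pi.add_apply, Pi.sub_apply, Pi.mul_apply, Pi.pow_apply]
    ring
  · rw [c6, c8, c3, quarticQ]
    ring

/-! ### The modular form `Ω` -/

/-- the quartic in a weight-2 form on `Γ₀(N)` is a weight-8 form on `Γ₀(N)` -/
theorem exists_omega_form {N : ℕ} [NeZero N] (H : ModularForm (Gamma0 N) 2) :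
    ∃ Ω : ModularForm (Gamma0 N) 8, (⇑Ω : ℍ → ℂ) = quartFun (⇑E₄) (⇑E₆) (⇑H) := by
  set E4' : ModularForm (Gamma0 N) 4 := Fermat.Agent.H22.restrictLevelOne N E₄ with hE4
  set E6' : ModularForm (Gamma0 N) 6 := Fermat.Agent.H22.restrictLevelOne N E₆ with hE6
  set t1 : ModularForm (Gamma0 N) 8 :=
    ModularForm.mcast (by norm_num) ((H.mul H).mul (H.mul H)) with ht1
  set t2 : ModularForm (Gamma0 N) 8 :=
    ModularForm.mcast (by norm_num) (E4'.mul (H.mul H)) with ht2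
  set t3 : ModularForm (Gamma0 N) 8 :=
    ModularForm.mcast (by norm_num) (E6'.mul H) with ht3
  set t4 : ModularForm (Gamma0 N) 8 :=
    ModularForm.mcast (by norm_num) (E4'.mul E4') with ht4
  refine ⟨(1 / 256 : ℂ) • (t1 - (6 : ℂ) • t2 + (8 : ℂ) • t3 - (3 : ℂ) • t4), ?_⟩
  funext z
  have hm : ∀ {k₁ k₂ : ℤ} (f : ModularForm (Gamma0 N) k₁) (g : ModularForm (Gamma0 N) k₂),
      (f.mul g) z = f z * g z := fun _ _ => rfl
  have e4 : E4' z = E₄ z := rfl
  have e6 : E6' z = E₆ z := rfl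
  simp only [quartFun, quarticQ, smul_apply, sub_apply, add_apply, ht1, ht2, ht3, ht4,
    ModularForm.mcast_apply, hm, smul_eq_mul, e4, e6]
  ring

/-! ### Integrality helpers -/

theorem expand_mem_seriesIn {R : Subring ℂ} (p : ℕ) (hp : p ≠ 0) {P : PowerSeries ℂ}
    (hP : P ∈ seriesIn R) : PowerSeries.expand p hp P ∈ seriesIn R := by
  intro n
  rw [PowerSeries.coeff_expand]
  split_ifs
  · exact hP _
  · exact R.zero_mem

theorem mk_mem_seriesIn {R : Subring ℂ} {f : ℕ → ℂ} (hf : ∀ n, f n ∈ R) :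
    PowerSeries.mk f ∈ seriesIn R := by
  intro n
  rw [PowerSeries.coeff_mk]
  exact hf n

theorem discriminant_mem_seriesIn (R : Subring ℂ) :
    qExpansion 1 ModularForm.discriminant ∈ seriesIn R := by
  rw [qExpansion_discriminant_eq_X_mul]
  exact (seriesIn R).mul_mem (X_mem_seriesIn R) (map_int_mem_seriesIn R _)

/-! ### Invariance of level-one forms and of `H` -/

theorem levelOne_slash {k : ℤ} (f : ModularForm 𝒮ℒ k) (γ : SL(2, ℤ)) :
    (⇑f : ℍ → ℂ) ∣[k] γ = ⇑f := by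
  rw [ModularForm.SL_slash]
  exact SlashInvariantForm.slash_action_eqn f _ ⟨γ, rfl⟩

theorem Gamma0_slash {N : ℕ} {k : ℤ} (f : ModularForm (Gamma0 N) k) {g : SL(2, ℤ)}
    (hg : g ∈ Gamma0 N) : (⇑f : ℍ → ℂ) ∣[k] g = ⇑f := by
  rw [ModularForm.SL_slash]
  exact SlashInvariantForm.slash_action_eqn f _ ⟨g, hg, rfl⟩

/-! ### The expansion of `H ∣ S T^j` from `ConjStatement` -/

/-- the series `V_j = -(1/p) ∑ a_{pn} ζ^{jn} tⁿ` -/
def conjSeries (p : ℕ) (j : ℤ) (A : PowerSeries ℂ) : PowerSeries ℂ :=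
  PowerSeries.mk fun n : ℕ =>
    -(p : ℂ)⁻¹ * PowerSeries.coeff (p * n) A * Complex.exp (2 * π * Complex.I * j / p) ^ n

theorem hasExpS_conj (hC : Fermat.Agent.H1.S16L2.ConjStatement) {p : ℕ} (hp : p.Prime)
    (H : ModularForm (Gamma0 p) 2) (j : ℤ) :
    HasExpS p ((⇑H : ℍ → ℂ) ∣[(2 : ℤ)] (ModularGroup.S * ModularGroup.T ^ j))
      (conjSeries p j (qExpansion 1 (⇑H))) := by
  intro z
  have h := hC p hp H j z
  convert h using 1
  funext n
  simp only [conjSeries, PowerSeries.coeff_mk]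
  have hp0 : (p : ℂ) ≠ 0 := by exact_mod_cast hp.ne_zero
  have : Complex.exp (2 * π * Complex.I * j / p) ^ n * Periodic.qParam (p : ℝ) (z : ℂ) ^ n
      = Complex.exp (2 * π * Complex.I * n * ((z : ℂ) + j) / p) := by
    unfold Periodic.qParam
    rw [← mul_pow, ← Complex.exp_add, ← Complex.exp_nat_mul]
    congr 1
    push_cast
    field_simp
    ring
  rw [mul_assoc, this]

/-! ### The expansions of the translates of `H / a₀` -/

/-- the shape `1 + 4 (ε + 2 x')` with `ε⁴ + ε³ ∈ 2 S` required by the key identity -/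
def GoodShape (p : ℕ) (F : ℍ → ℂ) : Prop :=
  ∃ ε x' t0 : PowerSeries ℂ, ε ∈ seriesIn twoInt ∧ x' ∈ seriesIn twoInt ∧ t0 ∈ seriesIn twoInt ∧
    ε ^ 4 + ε ^ 3 = 2 * t0 ∧ HasExpS p F (1 + 4 * (ε + 2 * x'))

/-- the case `γ ∈ Γ₀(p)` -/
theorem goodShape_self {p : ℕ} (hp : p.Prime) (H : ModularForm (Gamma0 p) 2) (a : ℕ → ℤ)
    (ha : ∀ n, PowerSeries.coeff n (qExpansion 1 (⇑H)) = (a n : ℂ))
    (h0 : Odd (a 0)) (h8 : ∀ n, 1 ≤ n → (8 : ℤ) ∣ a n) :
    GoodShape p (((a 0 : ℂ))⁻¹ • (⇑H : ℍ → ℂ)) := by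
  have hp0 : p ≠ 0 := hp.ne_zero
  have : NeZero p := ⟨hp0⟩
  set u : ℂ := (a 0 : ℂ) with hu
  have hu0 : u ≠ 0 := by
    have : a 0 ≠ 0 := by
      obtain ⟨k, hk⟩ := h0
      omega
    rw [hu]
    exact Int.cast_ne_zero.mpr this
  have huR : u⁻¹ ∈ twoInt := inv_intCast_mem_twoInt h0
  set x0 : PowerSeries ℂ :=
    PowerSeries.mk fun n => if n = 0 then 0 else u⁻¹ * ((a n / 8 : ℤ) : ℂ) with hx0
  have hx0R : x0 ∈ seriesIn twoInt := by
    apply mk_mem_seriesIn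
    intro n
    split_ifs
    · exact twoInt.zero_mem
    · exact twoInt.mul_mem huR (intCast_mem twoInt _)
  have hser : PowerSeries.C u⁻¹ * qExpansion 1 (⇑H) = 1 + 4 * (0 + 2 * x0) := by
    ext n
    have h4 : (4 : PowerSeries ℂ) = PowerSeries.C (4 : ℂ) := (map_ofNat PowerSeries.C 4).symm
    have h2 : (2 : PowerSeries ℂ) = PowerSeries.C (2 : ℂ) := (map_ofNat PowerSeries.C 2).symm
    rw [PowerSeries.coeff_C_mul, ha, map_add, zero_add, h4, h2, PowerSeries.coeff_C_mul,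
      PowerSeries.coeff_C_mul, hx0, PowerSeries.coeff_mk, PowerSeries.coeff_one]
    by_cases hn : n = 0
    · subst hn
      rw [if_pos rfl, if_pos rfl, inv_mul_cancel₀ hu0]
      ring
    · rw [if_neg hn, if_neg hn]
      obtain ⟨c, hc⟩ := h8 n (Nat.one_le_iff_ne_zero.mpr hn)
      have hdiv : a n / 8 = c := by rw [hc]; exact Int.mul_ediv_cancel_left c (by norm_num)
      rw [hdiv, hc]
      push_cast
      ring
  refine ⟨0, PowerSeries.expand p hp0 x0, 0, (seriesIn twoInt).zero_mem,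
    expand_mem_seriesIn p hp0 hx0R, (seriesIn twoInt).zero_mem, by ring, ?_⟩
  have h1 : HasExpS 1 (u⁻¹ • (⇑H : ℍ → ℂ)) (PowerSeries.C u⁻¹ * qExpansion 1 (⇑H)) :=
    (hasExpS_one_Gamma0 H).smul u⁻¹
  have h2 := h1.expand p hp0
  refine h2.congr_series ?_
  rw [hser]
  simp only [map_add, map_mul, map_one, map_zero, map_ofNat]

/-- the case `γ = S T^j` -/
theorem goodShape_conj (hC : Fermat.Agent.H1.S16L2.ConjStatement) {p : ℕ} (hp : p.Prime)
    (hp4 : p % 4 = 3) (H : ModularForm (Gamma0 p) 2) (a : ℕ → ℤ)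
    (ha : ∀ n, PowerSeries.coeff n (qExpansion 1 (⇑H)) = (a n : ℂ))
    (h0 : Odd (a 0)) (h8 : ∀ n, 1 ≤ n → (8 : ℤ) ∣ a n) (j : ℤ) :
    GoodShape p (((a 0 : ℂ))⁻¹ •
      ((⇑H : ℍ → ℂ) ∣[(2 : ℤ)] (ModularGroup.S * ModularGroup.T ^ j))) := by
  have hp0 : p ≠ 0 := hp.ne_zero
  have hpC : (p : ℂ) ≠ 0 := by exact_mod_cast hp0
  set u : ℂ := (a 0 : ℂ) with hu
  have hu0 : u ≠ 0 := by
    have : a 0 ≠ 0 := by
      obtain ⟨k, hk⟩ := h0
      omega
    rw [hu]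
    exact Int.cast_ne_zero.mpr this
  have huR : u⁻¹ ∈ twoInt := inv_intCast_mem_twoInt h0
  have hpodd : Odd p := Nat.odd_iff.mpr (by omega)
  have hpR : ((p : ℂ))⁻¹ ∈ twoInt := inv_natCast_mem_twoInt hpodd
  set ζ : ℂ := Complex.exp (2 * π * Complex.I * j / p) with hζ
  have hζR : ζ ∈ twoInt := exp_mem_twoInt p hp.pos j
  -- `p + 1 = 4 m`
  obtain ⟨m, hm⟩ : ∃ m : ℕ, p + 1 = 4 * m := ⟨(p + 1) / 4, by omega⟩
  have hmC : (p : ℂ) + 1 = 4 * (m : ℂ) := by exact_mod_cast congrArg (Nat.cast : ℕ → ℂ) hm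
  -- `m³ (3m - 1) = 2 c`
  obtain ⟨c, hc⟩ : ∃ c : ℤ, (m : ℤ) ^ 3 * (3 * (m : ℤ) - 1) = 2 * c := by
    rcases Int.even_or_odd' (m : ℤ) with ⟨k, hk | hk⟩
    · exact ⟨4 * k ^ 3 * (6 * k - 1), by rw [hk]; ring⟩
    · exact ⟨(2 * k + 1) ^ 3 * (3 * k + 1), by rw [hk]; ring⟩
  have hcC : (m : ℂ) ^ 3 * (3 * (m : ℂ) - 1) = 2 * (c : ℂ) := by
    exact_mod_cast congrArg (Int.cast : ℤ → ℂ) hc
  set ε0 : ℂ := -(m : ℂ) * (p : ℂ)⁻¹ with hε0
  set t0 : ℂ := -(c : ℂ) * ((p : ℂ)⁻¹) ^ 4 with ht0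
  have hε0R : ε0 ∈ twoInt := twoInt.mul_mem (twoInt.neg_mem (natCast_mem twoInt m)) hpR
  have ht0R : t0 ∈ twoInt :=
    twoInt.mul_mem (twoInt.neg_mem (intCast_mem twoInt c)) (twoInt.pow_mem hpR 4)
  have hεt : ε0 ^ 4 + ε0 ^ 3 = 2 * t0 := by
    have h3m : 3 * (m : ℂ) - 1 = (p : ℂ) - (m : ℂ) := by linear_combination -hmC
    rw [hε0, ht0]
    field_simp
    linear_combination (-(1 : ℂ)) * hcC - ((m : ℂ) ^ 3) * h3m - (2 * (m : ℂ) ^ 3) * hmC
  set x1 : PowerSeries ℂ :=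
    PowerSeries.mk fun n => if n = 0 then 0 else
      -(p : ℂ)⁻¹ * u⁻¹ * ((a (p * n) / 8 : ℤ) : ℂ) * ζ ^ n with hx1
  have hx1R : x1 ∈ seriesIn twoInt := by
    apply mk_mem_seriesIn
    intro n
    split_ifs
    · exact twoInt.zero_mem
    · exact twoInt.mul_mem (twoInt.mul_mem (twoInt.mul_mem (twoInt.neg_mem hpR) huR)
        (intCast_mem twoInt _)) (twoInt.pow_mem hζR n)
  have hser : PowerSeries.C u⁻¹ * conjSeries p j (qExpansion 1 (⇑H)) =
      1 + 4 * (PowerSeries.C ε0 + 2 * x1) := by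
    ext n
    have h4 : (4 : PowerSeries ℂ) = PowerSeries.C (4 : ℂ) := (map_ofNat PowerSeries.C 4).symm
    have h2 : (2 : PowerSeries ℂ) = PowerSeries.C (2 : ℂ) := (map_ofNat PowerSeries.C 2).symm
    rw [PowerSeries.coeff_C_mul, conjSeries, PowerSeries.coeff_mk, ha, map_add, h4,
      PowerSeries.coeff_C_mul, map_add, h2, PowerSeries.coeff_C_mul, hx1, PowerSeries.coeff_mk,
      PowerSeries.coeff_one, PowerSeries.coeff_C]
    by_cases hn : n = 0
    · subst hn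
      rw [if_pos rfl, if_pos rfl, if_pos rfl, mul_zero, pow_zero, hε0]
      field_simp
      linear_combination (-(a 0 : ℂ)) * hmC
    · rw [if_neg hn, if_neg hn, if_neg hn]
      have hpn : 1 ≤ p * n := Nat.one_le_iff_ne_zero.mpr (Nat.mul_ne_zero hp0 hn)
      obtain ⟨d, hd⟩ := h8 (p * n) hpn
      have hdiv : a (p * n) / 8 = d := by rw [hd]; exact Int.mul_ediv_cancel_left d (by norm_num)
      rw [hdiv, hd]
      push_cast
      ring
  refine ⟨PowerSeries.C ε0, x1, PowerSeries.C t0, C_mem_seriesIn hε0R, hx1R, C_mem_seriesIn ht0R,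
    ?_, ?_⟩
  · rw [← map_pow, ← map_pow, ← map_add, hεt, map_mul, map_ofNat PowerSeries.C 2]
  · have h1 := (hasExpS_conj hC hp H j).smul u⁻¹
    exact h1.congr_series hser

/-! ### The main theorem -/

/-- every translate of `H / a₀` has the good shape -/
theorem goodShape_translate (hC : Fermat.Agent.H1.S16L2.ConjStatement) {p : ℕ} (hp : p.Prime)
    (hp4 : p % 4 = 3) (H : ModularForm (Gamma0 p) 2) (a : ℕ → ℤ)
    (ha : ∀ n, PowerSeries.coeff n (qExpansion 1 (⇑H)) = (a n : ℂ))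
    (h0 : Odd (a 0)) (h8 : ∀ n, 1 ≤ n → (8 : ℤ) ∣ a n) (γ : SL(2, ℤ)) :
    GoodShape p ((((a 0 : ℂ))⁻¹ • (⇑H : ℍ → ℂ)) ∣[(2 : ℤ)] γ) := by
  rcases exists_coset_rep hp γ with hγ | ⟨g, hg, j, rfl⟩
  · rw [ModularForm.SL_smul_slash, Gamma0_slash H hγ]
    exact goodShape_self hp H a ha h0 h8
  · rw [ModularForm.SL_smul_slash, SlashAction.slash_mul, Gamma0_slash H hg]
    exact goodShape_conj hC hp hp4 H a ha h0 h8 j

/-- **(c) of route (β).** -/
theorem omegaStatement (hC : Fermat.Agent.H1.S16L2.ConjStatement) : OmegaStatement := by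
  intro p hp _ hp4 H a ha h0 h8
  have hp0 : p ≠ 0 := hp.ne_zero
  have : NeZero p := ⟨hp0⟩
  set u : ℂ := (a 0 : ℂ) with hu
  set H' : ModularForm (Gamma0 p) 2 := u⁻¹ • H with hH'
  have hH'coe : (⇑H' : ℍ → ℂ) = u⁻¹ • (⇑H : ℍ → ℂ) := rfl
  obtain ⟨Ω, hΩ⟩ := exists_omega_form H'
  refine ⟨Ω, fun γ => ?_⟩
  have hsl : (⇑Ω : ℍ → ℂ) ∣[(8 : ℤ)] γ =
      quartFun (⇑E₄) (⇑E₆) ((u⁻¹ • (⇑H : ℍ → ℂ)) ∣[(2 : ℤ)] γ) := by
    rw [hΩ, quartFun_slash, levelOne_slash, levelOne_slash, hH'coe]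
  set e4 : PowerSeries ℂ :=
    PowerSeries.expand p hp0 (PowerSeries.map (Int.castRingHom ℂ) e4S) with he4
  set κ : PowerSeries ℂ :=
    PowerSeries.expand p hp0 (PowerSeries.map (Int.castRingHom ℂ) kappaS) with hκ
  set D : PowerSeries ℂ :=
    PowerSeries.expand p hp0 (qExpansion 1 ModularForm.discriminant) with hD
  have he4R : e4 ∈ seriesIn twoInt := expand_mem_seriesIn p hp0 (map_int_mem_seriesIn _ _)
  have hκR : κ ∈ seriesIn twoInt := expand_mem_seriesIn p hp0 (map_int_mem_seriesIn _ _)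
  have hDR : D ∈ seriesIn twoInt := expand_mem_seriesIn p hp0 (discriminant_mem_seriesIn _)
  have hE4 : HasExpS p (⇑E₄) (1 + 16 * e4) := by
    have h1 := (hasExpS_one_levelOne E₄).expand p hp0
    refine h1.congr_series ?_
    rw [qExpansion_E₄_eq_e4S]
    simp only [map_add, map_mul, map_one, map_ofNat, he4]
  have hE6 : HasExpS p (⇑E₆) (1 + 24 * e4 + 32 * κ) := by
    have h1 := (hasExpS_one_levelOne E₆).expand p hp0
    refine h1.congr_series ?_
    rw [qExpansion_E₆_eq_kappaS]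
    simp only [map_add, map_mul, map_one, map_ofNat, he4, hκ]
  have hrel : 27 * D = -κ + 3 * e4 ^ 2 + 64 * e4 ^ 3 - 24 * e4 * κ - 16 * κ ^ 2 := by
    have h1 := congrArg (PowerSeries.expand p hp0) discriminant_relation
    simp only [map_add, map_sub, map_mul, map_neg, map_pow, map_ofNat] at h1
    exact h1
  obtain ⟨ε, x', t0, hε, hx', ht0, hεt, hX⟩ := goodShape_translate hC hp hp4 H a ha h0 h8 γ
  obtain ⟨Y, hY, hQ⟩ := exists_key_identity (seriesIn twoInt) e4 κ D ε x' t0 he4R hκR hDR hε hx'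
    ht0 hεt hrel
  refine ⟨Y, hY, ?_⟩
  have h1 := HasExpS.quart hp.pos hE4 hE6 hX
  rw [hQ, ← hsl] at h1
  refine h1.congr_series ?_
  have h256 : (PowerSeries.C (1 / 256 : ℂ) : PowerSeries ℂ) * 256 = 1 := by
    have : (256 : PowerSeries ℂ) = PowerSeries.C (256 : ℂ) := (map_ofNat PowerSeries.C 256).symm
    rw [this, ← map_mul]
    norm_num
  linear_combination (D + 2 * Y) * h256

end Fermat.Agent.H59
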