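import Fermat.Prelude.Def_WeierstrassCurve_Mlc1RowStatement
import Fermat.Prelude.Def_FLTPrelim_Ramification

/-!
# Conditional reduction of S60 (semistable modularity) to S51, S52, S59 and a Langlands-Tunnell input

Everything here is *conditional*: the deep inputs are passed as explicit hypotheses whose
types are the frozen statement types (S51, S52, S59) and a Langlands-Tunnell input in the
shape needed by S59 (level not divisible by `9`, cube-free away from `3`).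
-/

set_option autoImplicit false

open WeierstrassCurve WeierstrassCurve.Affine WeierstrassCurve.Affine.Point
open scoped WeierstrassCurve.Affine

namespace Fermat.Agent.H59

/-- The type of frozen statement S51. -/
def S51Type : Prop :=
  ∀ (W : WeierstrassCurve ℤ), W.Δ ≠ 0 → W.IsSemistableModel →
    W.ModRepIsIrreducible 3 ∨ W.ModRepIsIrreducible 5

/-- The type of frozen statement S52. -/
def S52Type : Prop :=
  ∀ (W : WeierstrassCurve ℤ), W.Δ ≠ 0 → W.IsSemistableModel → W.ModRepIsIrreducible 5 →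
    ∃ W' : WeierstrassCurve ℤ, W'.Δ ≠ 0 ∧ W'.IsSemistableModel ∧ W'.ModRepIsIrreducible 3 ∧
      ∀ ℓ : ℕ, ℓ.Prime → W.IsGoodPrimeFor ℓ → W'.IsGoodPrimeFor ℓ → ℓ ≠ 5 →
        (5 : ℤ) ∣ (W'.apOfModel ℓ - W.apOfModel ℓ)

/-- The type of frozen statement S59. -/
def S59Type : Prop :=
  ∀ (p : ℕ), p = 3 ∨ p = 5 →
    ∀ (W : WeierstrassCurve ℤ), W.Δ ≠ 0 → W.IsSemistableModel → W.ModRepIsIrreducible p →
    ∀ (M₀ : ℕ) [NeZero M₀], W.IsResiduallyModularOfLevel p M₀ →
    ¬ p ^ 2 ∣ M₀ →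
    (∀ q : ℕ, q.Prime → q ≠ p → ¬ q ^ 3 ∣ M₀) →
    Mlc1IsModularModelOfExactConductorLevel W

/-- The type of frozen statement S50 (Langlands-Tunnell, form (iii)). -/
def S50Type : Prop :=
  ∀ (W : WeierstrassCurve ℤ), W.Δ ≠ 0 → W.IsSemistableModel → W.ModRepIsIrreducible 3 →
    ∃ M : ℕ, 0 < M ∧ W.IsResiduallyModularOfLevel 3 M ∧
      (∀ q : ℕ, q.Prime → q ≠ 3 → ¬ q ^ 3 ∣ M) ∧
      (3 ^ 2 ∣ M →
        ∀ A : ValuationSubring (AlgebraicClosure ℚ), A.LiesOverPrime 3 →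
          ∀ x : Submodule.torsionBy ℤ
              ((W.map (Int.castRingHom ℚ))⁄(AlgebraicClosure ℚ)).Point (3 : ℕ),
            (∀ σ ∈ A.inertiaSubgroupIn ℚ, σ • x = x) → x = 0)

/-- Langlands-Tunnell in the shape that S59 consumes at `p = 3`: residual modularity of a level
that is not divisible by `9` and cube-free away from `3`. -/
def LT3Type : Prop :=
  ∀ (W : WeierstrassCurve ℤ), W.Δ ≠ 0 → W.IsSemistableModel → W.ModRepIsIrreducible 3 →
    ∃ M : ℕ, 0 < M ∧ W.IsResiduallyModularOfLevel 3 M ∧ ¬ 3 ^ 2 ∣ M ∧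
      (∀ q : ℕ, q.Prime → q ≠ 3 → ¬ q ^ 3 ∣ M)

/-- Exact-conductor-level modularity gives `IsModular` of the rational curve. -/
theorem isModular_of_mlc1 {W : WeierstrassCurve ℤ}
    (h : Mlc1IsModularModelOfExactConductorLevel W) :
    (W.map (Int.castRingHom ℚ)).IsModular := by
  obtain ⟨N, hN, -, -, hmod⟩ := h
  exact ⟨W, ⟨1, one_smul _ _⟩, N, hN, hmod⟩

/-- A prime square does not divide a squarefree number. -/
theorem not_sq_dvd_of_squarefree {N q : ℕ} (hN : Squarefree N) (hq : q.Prime) :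
    ¬ q ^ 2 ∣ N := by
  intro h
  have h1 : IsUnit q := hN q (by rw [← pow_two]; exact h)
  exact hq.one_lt.ne' (Nat.isUnit_iff.mp h1)

/-- A prime cube does not divide a squarefree number. -/
theorem not_cube_dvd_of_squarefree {N q : ℕ} (hN : Squarefree N) (hq : q.Prime) :
    ¬ q ^ 3 ∣ N := fun h =>
  not_sq_dvd_of_squarefree hN hq (dvd_trans (pow_dvd_pow q (by norm_num)) h)

/-- Transfer of modularity along a mod-`p` congruence of Frobenius traces: if `W'` is modular of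
exact conductor level `N` and the traces of `W'` and `W` agree mod `p` at common good primes
`ℓ ≠ p`, then `W` is residually modular at `p` of level `N`. -/
theorem isResiduallyModularOfLevel_of_congr {p : ℕ} (hp : p.Prime)
    {W W' : WeierstrassCurve ℤ} {N : ℕ}
    (hiff : ∀ q : ℕ, q.Prime → (q ∣ N ↔ (q : ℤ) ∣ W'.Δ))
    (hmod : W'.IsModularModelOfLevel N)
    (hcong : ∀ ℓ : ℕ, ℓ.Prime → W.IsGoodPrimeFor ℓ → W'.IsGoodPrimeFor ℓ → ℓ ≠ p →
        (p : ℤ) ∣ (W'.apOfModel ℓ - W.apOfModel ℓ)) :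
    W.IsResiduallyModularOfLevel p N := by
  obtain ⟨f, hf, hfa⟩ := hmod
  obtain ⟨𝔪, h𝔪, hp𝔪⟩ := FLTPrelim.exists_maximalIdeal_natCast_prime_mem hp
  refine ⟨f, 𝔪, hf, h𝔪, hp𝔪, ?_⟩
  intro ℓ hℓ hWℓ hℓN hℓp
  have hW'ℓ : W'.IsGoodPrimeFor ℓ := fun h => hℓN ((hiff ℓ hℓ).mpr h)
  refine ⟨((W'.apOfModel ℓ : ℤ) : integralClosure ℤ ℂ), ?_, ?_⟩
  · rw [hfa ℓ hℓ hW'ℓ hℓN]
    simp
  · obtain ⟨k, hk⟩ := hcong ℓ hℓ hWℓ hW'ℓ hℓp
    have h1 : ((W'.apOfModel ℓ : ℤ) : integralClosure ℤ ℂ)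
        - ((W.apOfModel ℓ : ℤ) : integralClosure ℤ ℂ)
        = (p : integralClosure ℤ ℂ) * ((k : ℤ) : integralClosure ℤ ℂ) := by
      have := congrArg (fun z : ℤ => (z : integralClosure ℤ ℂ)) hk
      simpa using this
    rw [h1]
    exact Ideal.mul_mem_right _ _ hp𝔪

/-- **Conditional semistable modularity.** From S51, S52, S59 and Langlands-Tunnell in the
`9 ∤ M` shape, every semistable integral Weierstrass curve is modular of exact conductor
level. -/
theorem mlc1_of_inputs (h51 : S51Type) (h52 : S52Type) (h59 : S59Type) (hLT : LT3Type)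
    (W : WeierstrassCurve ℤ) (hΔ : W.Δ ≠ 0) (hW : W.IsSemistableModel) :
    Mlc1IsModularModelOfExactConductorLevel W := by
  -- the case of irreducible mod-3 representation, for an arbitrary curve
  have case3 : ∀ V : WeierstrassCurve ℤ, V.Δ ≠ 0 → V.IsSemistableModel →
      V.ModRepIsIrreducible 3 → Mlc1IsModularModelOfExactConductorLevel V := by
    intro V hVΔ hV hV3
    obtain ⟨M, hM, hres, h9, hcube⟩ := hLT V hVΔ hV hV3
    have : NeZero M := ⟨hM.ne'⟩
    exact h59 3 (Or.inl rfl) V hVΔ hV hV3 M hres h9 hcube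
  rcases h51 W hΔ hW with h3 | h5
  · exact case3 W hΔ hW h3
  · obtain ⟨W', hW'Δ, hW', hW'3, hcong⟩ := h52 W hΔ hW h5
    obtain ⟨N, hN, hNsq, hiff, hmod⟩ := case3 W' hW'Δ hW' hW'3
    have : NeZero N := ⟨hN.ne'⟩
    have hres : W.IsResiduallyModularOfLevel 5 N :=
      isResiduallyModularOfLevel_of_congr (p := 5) Nat.prime_five hiff hmod
        (by simpa using hcong)
    exact h59 5 (Or.inr rfl) W hΔ hW h5 N hres
      (not_sq_dvd_of_squarefree hNsq Nat.prime_five)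
      (fun q hq _ => not_cube_dvd_of_squarefree hNsq hq)

/-- **Conditional S60.** -/
theorem isModular_of_inputs (h51 : S51Type) (h52 : S52Type) (h59 : S59Type) (hLT : LT3Type)
    (W : WeierstrassCurve ℤ) (hΔ : W.Δ ≠ 0) (hW : W.IsSemistableModel) :
    (W.map (Int.castRingHom ℚ)).IsModular :=
  isModular_of_mlc1 (mlc1_of_inputs h51 h52 h59 hLT W hΔ hW)

/-- S50 gives the `LT3Type` input provided its level is never divisible by `9`
(this is the only gap between S50 and the input shape of S59). -/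
theorem lt3_of_s50 (h50 : S50Type)
    (hbridge : ∀ (W : WeierstrassCurve ℤ), W.Δ ≠ 0 → W.IsSemistableModel →
      W.ModRepIsIrreducible 3 → ∀ M : ℕ, 0 < M → W.IsResiduallyModularOfLevel 3 M →
      (∀ q : ℕ, q.Prime → q ≠ 3 → ¬ q ^ 3 ∣ M) → 3 ^ 2 ∣ M →
      (∀ A : ValuationSubring (AlgebraicClosure ℚ), A.LiesOverPrime 3 →
          ∀ x : Submodule.torsionBy ℤ
              ((W.map (Int.castRingHom ℚ))⁄(AlgebraicClosure ℚ)).Point (3 : ℕ),
            (∀ σ ∈ A.inertiaSubgroupIn ℚ, σ • x = x) → x = 0) →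
      ∃ M' : ℕ, 0 < M' ∧ W.IsResiduallyModularOfLevel 3 M' ∧ ¬ 3 ^ 2 ∣ M' ∧
        (∀ q : ℕ, q.Prime → q ≠ 3 → ¬ q ^ 3 ∣ M')) :
    LT3Type := by
  intro W hΔ hW h3
  obtain ⟨M, hM, hres, hcube, hin⟩ := h50 W hΔ hW h3
  by_cases h9 : 3 ^ 2 ∣ M
  · exact hbridge W hΔ hW h3 M hM hres hcube h9 (hin h9)
  · exact ⟨M, hM, hres, h9, hcube⟩

end Fermat.Agent.H59
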